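import Mathlib

/-!
# S17 / WC — sub-leaf L1c of helper7716's refinement of WC1 (helper7738)

`exists_finite_of_evenAway_ext`: `K₁ ≤ K'` number fields inside `ℚ̄`, `N ≠ 0`.  Outside the finite
set `S` of primes of `K₁` dividing `N` or lying below a prime of `K'` dividing the different of
`K'/K₁`, an element of `K₁` whose valuations at all primes of `K'` not dividing `N` are even has
even valuation (`w` over `v` unramified ⟹ `w(c) = v(c)`; Mathlib `valuation_liesOver`,
`not_dvd_differentIdeal_iff`).  Mathlib only.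
-/

set_option autoImplicit false

open IsDedekindDomain NumberField

namespace Fermat.Agent.S17.WC.H7738

/-- Descent of evenness of valuations along a finite extension of number fields, away from `N`
and the primes below the different. -/
theorem exists_finite_even_descent (K L : Type*) [Field K] [NumberField K] [Field L] [NumberField L]
    [Algebra K L] (N : ℕ) (hN : N ≠ 0) :
    ∃ S : Set (HeightOneSpectrum (𝓞 K)), S.Finite ∧ ∀ c : K,
      (∀ w : HeightOneSpectrum (𝓞 L), (N : 𝓞 L) ∉ w.asIdeal →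
        (2 : ℤ) ∣ WithZero.log (w.valuation L (algebraMap K L c))) →
      ∀ v : HeightOneSpectrum (𝓞 K), v ∉ S → (2 : ℤ) ∣ WithZero.log (v.valuation K c) := by
  classical
  let Wbad : Set (HeightOneSpectrum (𝓞 L)) := {w | w.asIdeal ∣ differentIdeal (𝓞 K) (𝓞 L)}
  have hWfin : Wbad.Finite := Ideal.finite_factors (differentIdeal_ne_bot)
  let S₁ : Set (HeightOneSpectrum (𝓞 K)) := {v | v.asIdeal ∣ Ideal.span {(N : 𝓞 K)}}
  have hS₁ : S₁.Finite := Ideal.finite_factors (by
    rw [Ne, Ideal.zero_eq_bot, Ideal.span_singleton_eq_bot]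
    exact_mod_cast hN)
  let S₂ : Set (HeightOneSpectrum (𝓞 K)) := {v | ∃ w ∈ Wbad, w.asIdeal.under (𝓞 K) = v.asIdeal}
  have hS₂ : S₂.Finite := by
    refine (Set.Finite.biUnion hWfin (t := fun w => {v : HeightOneSpectrum (𝓞 K) |
      w.asIdeal.under (𝓞 K) = v.asIdeal}) fun w _ => ?_).subset ?_
    · refine Set.Subsingleton.finite fun v hv v' hv' => ?_
      exact HeightOneSpectrum.ext (hv.symm.trans hv')
    · rintro v ⟨w, hw, hwv⟩
      exact Set.mem_biUnion hw hwv
  refine ⟨S₁ ∪ S₂, hS₁.union hS₂, fun c hev v hv => ?_⟩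
  obtain ⟨⟨Q, hQp, hQo⟩⟩ := Ideal.nonempty_primesOver (S := 𝓞 L) v.asIdeal
  have hQ0 : Q ≠ ⊥ := Ideal.ne_bot_of_liesOver_of_ne_bot v.ne_bot Q
  let w : HeightOneSpectrum (𝓞 L) := ⟨Q, hQp, hQ0⟩
  have hwo : w.asIdeal.LiesOver v.asIdeal := hQo
  have hund : w.asIdeal.under (𝓞 K) = v.asIdeal := (Ideal.LiesOver.over (P := Q) (p := v.asIdeal)).symm
  have hv₁ : v ∉ S₁ := fun h => hv (Or.inl h)
  have hv₂ : v ∉ S₂ := fun h => hv (Or.inr h)
  have hwbad : ¬ w.asIdeal ∣ differentIdeal (𝓞 K) (𝓞 L) := fun h => hv₂ ⟨w, h, hund⟩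
  have hNw : (N : 𝓞 L) ∉ w.asIdeal := by
    intro hmem
    apply hv₁
    show v.asIdeal ∣ Ideal.span {(N : 𝓞 K)}
    rw [Ideal.dvd_span_singleton, ← hund, Ideal.under_def, Ideal.mem_comap]
    simpa using hmem
  have hunr : Algebra.IsUnramifiedAt (𝓞 K) w.asIdeal := not_dvd_differentIdeal_iff.mp hwbad
  have he : v.asIdeal.ramificationIdx' w.asIdeal = 1 := by
    let := Localization.AtPrime.algebraOfLiesOver (w.asIdeal.under (𝓞 K)) w.asIdeal
    obtain ⟨-, h2⟩ := (Algebra.isUnramifiedAt_iff_map_eq (p := w.asIdeal.under (𝓞 K)) _ _).mp hunr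
    rw [← hund]
    exact (Ideal.IsDedekindDomain.ramificationIdx'_eq_one_iff w.ne_bot Ideal.map_comap_le).mpr h2
  have hval := HeightOneSpectrum.valuation_liesOver (K := K) L v w c
  rw [he, pow_one] at hval
  rw [hval]
  exact hev w hNw

/-- **L1c** (statement of `L1.exists_finite_of_evenAway_ext` of helper7716's `WC/L1Skel.lean`,
with `EvenAway` unfolded and arbitrary `NumberField` instances). -/
theorem exists_finite_of_evenAway_ext (K₁ K' : IntermediateField ℚ (AlgebraicClosure ℚ))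
    [NumberField K₁] [NumberField K'] (hle : K₁ ≤ K') (N : ℕ) (hN : N ≠ 0) :
    ∃ S : Set (HeightOneSpectrum (𝓞 K₁)), S.Finite ∧
      ∀ (c : K₁ˣ) (a : K'), (a : AlgebraicClosure ℚ) = (((c : K₁ˣ) : K₁) : AlgebraicClosure ℚ) →
        (∀ w : HeightOneSpectrum (𝓞 K'), (N : 𝓞 K') ∉ w.asIdeal →
          (2 : ℤ) ∣ WithZero.log (w.valuation K' a)) →
        ∀ v : HeightOneSpectrum (𝓞 K₁), v ∉ S →
          (2 : ℤ) ∣ Multiplicative.toAdd (v.valuationOfNeZero c) := by
  letI : Algebra K₁ K' := (IntermediateField.inclusion hle).toRingHom.toAlgebra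
  obtain ⟨S, hS, H⟩ := exists_finite_even_descent K₁ K' N hN
  refine ⟨S, hS, fun c a hac hev v hv => ?_⟩
  have ha : a = algebraMap K₁ K' (c : K₁) := by
    apply Subtype.ext
    rw [hac]
    rfl
  have h1 := H (c : K₁) (by rw [← ha]; exact hev) v hv
  rw [← HeightOneSpectrum.valuationOfNeZero_eq] at h1
  exact h1

end Fermat.Agent.S17.WC.H7738
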