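import Mathlib
import Fermat.Prelude.Def_AlgebraicCurve_IsCurveOver
import Fermat.Agent.S24.A564.SumOrd

/-!
# S17 / WC — geometric half of W5 (helper7738)

`div f = 2 E`  ⟹  finitely many functions `h j` and `N ≠ 0` such that for every place `P` off the
support of `E` and every valuation subring `O ⊆ K` (`K` algebraic over `ℚ`) containing `1/N`:
`f(P) = (h j)(P)² · (unit of O)` for some `j`.

No Riemann–Roch: on the affine chart `B = ` integral closure of `K[x]` the fractional ideal `f B`
is a square `𝔞²` (unique factorisation of fractional ideals), so `f = ∑ b_k g_k g'_k` with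
`g_k, g'_k ∈ 𝔞`, `b_k ∈ B` and `g² ∈ f B` for `g ∈ 𝔞`; elements of `B` are integral over `K[x]`,
hence take `O`-integral values at points whose `x`-coordinate is `O`-integral.  Two charts
(`x` and `x⁻¹`) cover all places.
-/

set_option autoImplicit false

namespace Fermat.Agent.S17.WC.H7738

open AlgebraicCurve IsDedekindDomain IntermediateField

section Eval

variable {K F : Type*} [Field K] [Field F] [Algebra K F]

/-- `f` is regular at `P` with value `c`. -/
def HasVal (P : Place K F) (f : F) (c : K) : Prop :=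
  f - algebraMap K F c ∈ P.toValuationSubring.nonunits

theorem HasVal.mem {P : Place K F} {f : F} {c : K} (h : HasVal P f c) :
    f ∈ P.toValuationSubring := by
  have h1 : f - algebraMap K F c ∈ P.toValuationSubring :=
    ValuationSubring.nonunits_subset h
  have h2 := add_mem h1 (P.algebraMap_mem' c)
  simpa using h2

theorem hasVal_algebraMap (P : Place K F) (c : K) : HasVal P (algebraMap K F c) c := by
  unfold HasVal
  rw [sub_self]
  exact zero_mem _

theorem HasVal.add {P : Place K F} {f g : F} {c d : K} (hf : HasVal P f c) (hg : HasVal P g d) :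
    HasVal P (f + g) (c + d) := by
  unfold HasVal at *
  have := add_mem hf hg
  rw [map_add]
  convert this using 1
  ring

theorem HasVal.mul {P : Place K F} {f g : F} {c d : K} (hf : HasVal P f c) (hg : HasVal P g d) :
    HasVal P (f * g) (c * d) := by
  have hfm := hf.mem
  unfold HasVal at *
  rw [ValuationSubring.mem_nonunits_iff] at *
  have h1 : f * g - algebraMap K F (c * d)
      = f * (g - algebraMap K F d) + (f - algebraMap K F c) * algebraMap K F d := by
    rw [map_mul]; ring
  rw [h1]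
  refine lt_of_le_of_lt (Valuation.map_add _ _ _) (max_lt ?_ ?_)
  · rw [map_mul]
    have : P.toValuationSubring.valuation f ≤ 1 := (ValuationSubring.valuation_le_one_iff _ _).mpr hfm
    calc _ ≤ 1 * P.toValuationSubring.valuation (g - algebraMap K F d) := by gcongr
      _ < 1 := by rwa [one_mul]
  · rw [map_mul]
    have : P.toValuationSubring.valuation (algebraMap K F d) ≤ 1 :=
      (ValuationSubring.valuation_le_one_iff _ _).mpr (P.algebraMap_mem' d)
    calc _ ≤ P.toValuationSubring.valuation (f - algebraMap K F c) * 1 := by gcongr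
      _ < 1 := by rwa [mul_one]

theorem HasVal.unique {P : Place K F} {f : F} {c d : K} (hc : HasVal P f c) (hd : HasVal P f d) :
    c = d := by
  by_contra hne
  unfold HasVal at *
  have h1 : algebraMap K F (d - c) ∈ P.toValuationSubring.nonunits := by
    have := sub_mem hc hd
    rw [map_sub]
    convert this using 1
    ring
  have hne' : d - c ≠ 0 := sub_ne_zero.mpr (Ne.symm hne)
  rw [ValuationSubring.mem_nonunits_iff_or] at h1
  rcases h1 with h1 | h1
  · exact hne' ((algebraMap K F).injective (by rw [h1, map_zero]))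
  · apply h1
    rw [← map_inv₀]
    exact P.algebraMap_mem' _

/-- existence of values: the residue field is `K`. -/
theorem exists_hasVal [IsAlgClosed K] [IsCurveOver K F] (P : Place K F) {f : F}
    (hf : f ∈ P.toValuationSubring) : ∃ c : K, HasVal P f c := by
  have : Module.Finite K P.ResidueField := IsCurveOver.finiteResidue P
  have : Algebra.IsIntegral K P.ResidueField := Algebra.IsIntegral.of_finite K P.ResidueField
  have hbij : Function.Bijective (algebraMap K P.ResidueField) :=
    IsAlgClosed.algebraMap_bijective_of_isIntegral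
  obtain ⟨c, hc⟩ := hbij.2 (IsLocalRing.residue P.toValuationSubring ⟨f, hf⟩)
  refine ⟨c, ?_⟩
  unfold HasVal
  rw [ValuationSubring.mem_nonunits_iff_exists_mem_maximalIdeal]
  refine ⟨sub_mem hf (P.algebraMap_mem' c), ?_⟩
  have h1 : (⟨f - algebraMap K F c, sub_mem hf (P.algebraMap_mem' c)⟩ : P.toValuationSubring)
      = ⟨f, hf⟩ - algebraMap K P.toValuationSubring c := rfl
  rw [h1, ← IsLocalRing.residue_eq_zero_iff, map_sub, ← hc]
  exact sub_self _

/-- the value is nonzero iff the function is a unit at `P`. -/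
theorem HasVal.ne_zero_of_inv_mem {P : Place K F} {f : F} {c : K} (h : HasVal P f c)
    (hinv : f⁻¹ ∈ P.toValuationSubring) (hf : f ≠ 0) : c ≠ 0 := by
  rintro rfl
  unfold HasVal at h
  rw [map_zero, sub_zero, ValuationSubring.mem_nonunits_iff_or] at h
  rcases h with h | h
  · exact hf h
  · exact h hinv

theorem hasVal_zero (P : Place K F) : HasVal P (0 : F) (0 : K) := by
  simpa using hasVal_algebraMap P (0 : K)

theorem hasVal_one (P : Place K F) : HasVal P (1 : F) (1 : K) := by
  simpa using hasVal_algebraMap P (1 : K)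

theorem HasVal.pow {P : Place K F} {f : F} {c : K} (hf : HasVal P f c) (n : ℕ) :
    HasVal P (f ^ n) (c ^ n) := by
  induction n with
  | zero => simpa using hasVal_one P
  | succ n ih => rw [pow_succ, pow_succ]; exact ih.mul hf

theorem HasVal.sum {P : Place K F} {ι : Type*} (s : Finset ι) (f : ι → F) (c : ι → K)
    (h : ∀ i ∈ s, HasVal P (f i) (c i)) : HasVal P (∑ i ∈ s, f i) (∑ i ∈ s, c i) := by
  classical
  induction s using Finset.induction_on with
  | empty => simpa using hasVal_zero P
  | insert a s ha ih =>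
    rw [Finset.sum_insert ha, Finset.sum_insert ha]
    exact (h a (Finset.mem_insert_self a s)).add
      (ih fun i hi => h i (Finset.mem_insert_of_mem hi))

theorem HasVal.aeval {P : Place K F} {x : F} {c : K} (hx : HasVal P x c) (q : Polynomial K) :
    HasVal P (Polynomial.aeval x q) (q.eval c) := by
  rw [Polynomial.aeval_eq_sum_range, Polynomial.eval_eq_sum_range]
  refine HasVal.sum _ _ _ fun i _ => ?_
  rw [Algebra.smul_def]
  exact (hasVal_algebraMap P _).mul (hx.pow i)

theorem HasVal.inv {P : Place K F} {x : F} {c : K} (h : HasVal P x c) (hc : c ≠ 0) :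
    HasVal P x⁻¹ c⁻¹ := by
  have hx0 : x ≠ 0 := by
    rintro rfl
    exact hc (h.unique (hasVal_zero P))
  have hxinv : x⁻¹ ∈ P.toValuationSubring := by
    by_contra hcon
    have : HasVal P x 0 := by
      unfold HasVal
      rw [map_zero, sub_zero, ValuationSubring.mem_nonunits_iff_or]
      exact Or.inr hcon
    exact hc (h.unique this)
  have hcF : algebraMap K F c ≠ 0 := (map_ne_zero _).mpr hc
  unfold HasVal at h ⊢
  rw [ValuationSubring.mem_nonunits_iff] at h ⊢
  have : x⁻¹ - algebraMap K F c⁻¹ = -((x - algebraMap K F c) * (x⁻¹ * algebraMap K F c⁻¹)) := by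
    rw [map_inv₀]
    field_simp
    ring
  rw [this, Valuation.map_neg, map_mul]
  have h2 : P.toValuationSubring.valuation (x⁻¹ * algebraMap K F c⁻¹) ≤ 1 :=
    (ValuationSubring.valuation_le_one_iff _ _).mpr (mul_mem hxinv (P.algebraMap_mem' _))
  calc _ ≤ P.toValuationSubring.valuation (x - algebraMap K F c) * 1 := by gcongr
    _ < 1 := by rwa [mul_one]

end Eval

section Spread

variable {K : Type*} [Field K]

/-- A root of a monic polynomial relation with coefficients in a valuation subring lies in it. -/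
theorem mem_of_monic_relation (O : ValuationSubring K) (n : ℕ) (a : ℕ → K)
    (ha : ∀ i < n, a i ∈ O) (y : K)
    (h : y ^ n + ∑ i ∈ Finset.range n, a i * y ^ i = 0) : y ∈ O := by
  by_contra hy
  have hv : 1 < O.valuation y := by
    rw [← not_le, ValuationSubring.valuation_le_one_iff]
    exact hy
  rcases Nat.eq_zero_or_pos n with rfl | hn
  · simp at h
  have h1 : y ^ n = -∑ i ∈ Finset.range n, a i * y ^ i := eq_neg_of_add_eq_zero_left h
  have h2 : O.valuation (y ^ n) ≤ O.valuation y ^ (n - 1) := by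
    rw [h1, Valuation.map_neg]
    refine Valuation.map_sum_le _ fun i hi => ?_
    have hi' : i < n := Finset.mem_range.mp hi
    rw [map_mul, map_pow]
    have h3 : O.valuation (a i) ≤ 1 := (ValuationSubring.valuation_le_one_iff _ _).mpr (ha i hi')
    calc O.valuation (a i) * O.valuation y ^ i ≤ 1 * O.valuation y ^ i := by gcongr
      _ = O.valuation y ^ i := one_mul _
      _ ≤ O.valuation y ^ (n - 1) := pow_le_pow_right₀ hv.le (by omega)
  rw [map_pow] at h2
  have h4 : O.valuation y ^ (n - 1) < O.valuation y ^ n := pow_lt_pow_right₀ hv (by omega)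
  exact absurd h2 (not_le.mpr h4)

/-- finitely many elements of a field algebraic over `ℚ` lie in each valuation subring containing
`1/N`, for a suitable `N`. -/
theorem exists_nat_forall_mem_finset [CharZero K] [Algebra.IsAlgebraic ℚ K] (S : Finset K) :
    ∃ N : ℕ, N ≠ 0 ∧ ∀ O : ValuationSubring K, (N : K)⁻¹ ∈ O → ∀ s ∈ S, s ∈ O := by
  have : Algebra.IsAlgebraic ℤ K := (IsFractionRing.comap_isAlgebraic_iff (K := ℚ)).mpr inferInstance
  obtain ⟨y, hy, hint⟩ := Algebra.IsAlgebraic.exists_integral_multiples ℤ S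
  refine ⟨y.natAbs, Int.natAbs_ne_zero.mpr hy, fun O hO s hs => ?_⟩
  have hyK : (y : K) ≠ 0 := Int.cast_ne_zero.mpr hy
  have hyinv : (y : K)⁻¹ ∈ O := by
    rcases Int.natAbs_eq y with h | h
    · have h' : (y : K) = (y.natAbs : K) :=
        (congrArg (Int.cast : ℤ → K) h).trans (Int.cast_natCast _)
      rw [h']; exact hO
    · have h' : (y : K) = -(y.natAbs : K) :=
        (congrArg (Int.cast : ℤ → K) h).trans (by rw [Int.cast_neg, Int.cast_natCast])
      rw [h', inv_neg]
      exact neg_mem hO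
  have hx : y • s ∈ O := by
    have hint' : IsIntegral O (y • s) := (hint s hs).tower_top
    obtain ⟨z, hz⟩ := (IsIntegrallyClosed.isIntegral_iff (R := O) (K := K)).mp hint'
    rw [← hz]
    exact z.2
  have : s = (y : K)⁻¹ * (y • s) := by
    rw [zsmul_eq_mul]
    field_simp
  rw [this]
  exact mul_mem hyinv hx

end Spread

section SpreadPlace

variable {K F : Type*} [Field K] [Field F] [Algebra K F]

/-- **Spreading out integrality.**  If `b` is integral over `K[x]`, then there is `N ≠ 0` such that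
at every place `P` and every valuation subring `O ∋ 1/N` of `K`: `x(P) ∈ O → b(P) ∈ O`. -/
theorem exists_nat_forall_hasVal_mem [CharZero K] [Algebra.IsAlgebraic ℚ K] (x b : F)
    (hb : IsIntegral (Algebra.adjoin K {x}) b) :
    ∃ N : ℕ, N ≠ 0 ∧ ∀ (P : Place K F) (cx cb : K), HasVal P x cx → HasVal P b cb →
      ∀ O : ValuationSubring K, (N : K)⁻¹ ∈ O → cx ∈ O → cb ∈ O := by
  classical
  obtain ⟨p, hp, hpb⟩ := hb
  have hq : ∀ i : ℕ, ∃ q : Polynomial K,
      Polynomial.aeval x q = ((p.coeff i : Algebra.adjoin K {x}) : F) := by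
    intro i
    have : ((p.coeff i : Algebra.adjoin K {x}) : F) ∈
        (Polynomial.aeval x : Polynomial K →ₐ[K] F).range := by
      rw [← Algebra.adjoin_singleton_eq_range_aeval]
      exact (p.coeff i).2
    exact this
  choose q hq using hq
  set n := p.natDegree with hn
  let S : Finset K := (Finset.range n).biUnion fun i => (q i).coeffs
  obtain ⟨N, hN, hNO⟩ := exists_nat_forall_mem_finset S
  refine ⟨N, hN, fun P cx cb hx hbv O hO hcx => ?_⟩
  have hrel : b ^ n + ∑ i ∈ Finset.range n, Polynomial.aeval x (q i) * b ^ i = 0 := by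
    rw [Polynomial.eval₂_eq_sum_range, Finset.sum_range_succ] at hpb
    rw [add_comm]
    rw [← hpb]
    congr 1
    · refine Finset.sum_congr rfl fun i _ => ?_
      rw [hq i]; rfl
    · rw [← hn, hp.coeff_natDegree]; simp
  have hval : HasVal P (b ^ n + ∑ i ∈ Finset.range n, Polynomial.aeval x (q i) * b ^ i)
      (cb ^ n + ∑ i ∈ Finset.range n, (q i).eval cx * cb ^ i) :=
    (hbv.pow n).add (HasVal.sum _ _ _ fun i _ => (hx.aeval (q i)).mul (hbv.pow i))
  rw [hrel] at hval
  have h0 := HasVal.unique hval (hasVal_zero P)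
  refine mem_of_monic_relation O n (fun i => (q i).eval cx) (fun i hi => ?_) cb h0
  show (q i).eval cx ∈ O
  rw [Polynomial.eval_eq_sum_range]
  refine sum_mem fun j _ => mul_mem ?_ (pow_mem hcx j)
  by_cases hj : (q i).coeff j = 0
  · rw [hj]; exact zero_mem _
  · exact hNO O hO _ (Finset.mem_biUnion.mpr
      ⟨i, Finset.mem_range.mpr hi, Polynomial.coeff_mem_coeffs hj⟩)

end SpreadPlace

section Dedekind

open scoped nonZeroDivisors

variable {B F : Type*} [CommRing B] [IsDedekindDomain B] [Field F] [Algebra B F] [IsFractionRing B F]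

/-- the exponent of `w` in a principal fractional ideal is minus the log of the valuation. -/
theorem count_spanSingleton_eq (w : HeightOneSpectrum B) {f : F} (hf : f ≠ 0) :
    FractionalIdeal.count F w (FractionalIdeal.spanSingleton B⁰ f)
      = -WithZero.log (w.valuation F f) := by
  classical
  obtain ⟨n, d, hd, rfl⟩ := IsFractionRing.div_surjective (A := B) f
  have hd0 : d ≠ 0 := nonZeroDivisors.ne_zero hd
  have hn0 : n ≠ 0 := by
    rintro rfl
    simp at hf
  have hI : FractionalIdeal.spanSingleton B⁰ (algebraMap B F n / algebraMap B F d) ≠ 0 := by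
    rwa [ne_eq, FractionalIdeal.spanSingleton_eq_zero_iff]
  have h_aJ : FractionalIdeal.spanSingleton B⁰ (algebraMap B F n / algebraMap B F d)
      = FractionalIdeal.spanSingleton B⁰ ((algebraMap B F) d)⁻¹ * ↑(Ideal.span {n} : Ideal B) := by
    rw [FractionalIdeal.coeIdeal_span_singleton, FractionalIdeal.spanSingleton_mul_spanSingleton,
      div_eq_inv_mul]
  rw [FractionalIdeal.count_well_defined F w hI h_aJ]
  have hval : w.valuation F (algebraMap B F n / algebraMap B F d)
      = w.intValuation n / w.intValuation d := by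
    rw [map_div₀, HeightOneSpectrum.valuation_of_algebraMap,
      HeightOneSpectrum.valuation_of_algebraMap]
  rw [hval, w.intValuation_if_neg hn0, w.intValuation_if_neg hd0,
    WithZero.log_div WithZero.exp_ne_zero WithZero.exp_ne_zero, WithZero.log_exp, WithZero.log_exp]
  ring

/-- a principal fractional ideal all of whose exponents are even is a square. -/
theorem exists_sqrt_fractionalIdeal {f : F} (hf : f ≠ 0)
    (heven : ∀ w : HeightOneSpectrum B, ∃ e : ℤ, WithZero.log (w.valuation F f) = 2 * e) :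
    ∃ 𝔞 : FractionalIdeal B⁰ F, 𝔞 * 𝔞 = FractionalIdeal.spanSingleton B⁰ f := by
  classical
  set J : FractionalIdeal B⁰ F := FractionalIdeal.spanSingleton B⁰ f with hJ
  have hJ0 : J ≠ 0 := by
    rwa [hJ, ne_eq, FractionalIdeal.spanSingleton_eq_zero_iff]
  have hev : ∀ w : HeightOneSpectrum B, ∃ e : ℤ, FractionalIdeal.count F w J = e + e := by
    intro w
    obtain ⟨e, he⟩ := heven w
    exact ⟨-e, by rw [hJ, count_spanSingleton_eq w hf, he]; ring⟩
  choose e he using hev
  refine ⟨∏ᶠ w : HeightOneSpectrum B, (w.asIdeal : FractionalIdeal B⁰ F) ^ (e w), ?_⟩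
  have hfin : (Function.mulSupport fun w : HeightOneSpectrum B =>
      (w.asIdeal : FractionalIdeal B⁰ F) ^ (e w)).Finite := by
    have h1 := FractionalIdeal.finite_factors (K := F) J
    rw [Filter.eventually_cofinite] at h1
    refine h1.subset fun w hw => ?_
    simp only [Function.mem_mulSupport] at hw
    show ¬ (FractionalIdeal.count F w J = 0)
    intro h0
    apply hw
    have : e w = 0 := by
      have := he w
      rw [h0] at this
      omega
    rw [this, zpow_zero]
  rw [← finprod_mul_distrib hfin hfin]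
  have h2 : ∀ w : HeightOneSpectrum B,
      (w.asIdeal : FractionalIdeal B⁰ F) ^ (e w) * (w.asIdeal : FractionalIdeal B⁰ F) ^ (e w)
        = (w.asIdeal : FractionalIdeal B⁰ F) ^ FractionalIdeal.count F w J := by
    intro w
    have hw0 : (w.asIdeal : FractionalIdeal B⁰ F) ≠ 0 :=
      FractionalIdeal.coeIdeal_ne_zero.mpr w.ne_bot
    rw [← zpow_add₀ hw0, he w]
  simp_rw [h2]
  exact FractionalIdeal.finprod_heightOneSpectrum_factorization' F hJ0

/-- decomposition data on a Dedekind chart: `f = ∑ g_k g'_k` with `g_k², g'_k² ∈ f B`. -/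
theorem exists_sqrt_data {f : F} (hf : f ≠ 0)
    (heven : ∀ w : HeightOneSpectrum B, ∃ e : ℤ, WithZero.log (w.valuation F f) = 2 * e) :
    ∃ (m : ℕ) (g g' : Fin m → F), f = ∑ k, g k * g' k ∧
      (∀ k, ∃ β : B, g k ^ 2 = algebraMap B F β * f) ∧
      (∀ k, ∃ β : B, g' k ^ 2 = algebraMap B F β * f) := by
  obtain ⟨𝔞, h𝔞⟩ := exists_sqrt_fractionalIdeal (B := B) hf heven
  have hmem : f ∈ 𝔞 * 𝔞 := by
    rw [h𝔞]
    exact FractionalIdeal.mem_spanSingleton_self _ _
  have hsq : ∀ g ∈ 𝔞, ∃ β : B, g ^ 2 = algebraMap B F β * f := by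
    intro g hg
    have : g * g ∈ 𝔞 * 𝔞 := FractionalIdeal.mul_mem_mul hg hg
    rw [h𝔞, FractionalIdeal.mem_spanSingleton] at this
    obtain ⟨β, hβ⟩ := this
    exact ⟨β, by rw [pow_two, ← hβ, Algebra.smul_def]⟩
  have key : ∃ (m : ℕ) (g g' : Fin m → F), (∀ k, g k ∈ 𝔞) ∧ (∀ k, g' k ∈ 𝔞) ∧
      f = ∑ k, g k * g' k := by
    refine FractionalIdeal.mul_induction_on hmem ?_ ?_
    · intro i hi j hj
      exact ⟨1, fun _ => i, fun _ => j, fun _ => hi, fun _ => hj, by simp⟩
    · rintro x y ⟨m₁, g₁, g₁', h₁, h₁', rfl⟩ ⟨m₂, g₂, g₂', h₂, h₂', rfl⟩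
      refine ⟨m₁ + m₂, Fin.append g₁ g₂, Fin.append g₁' g₂', ?_, ?_, ?_⟩
      · intro k
        refine Fin.addCases (fun i => ?_) (fun i => ?_) k
        · simpa using h₁ i
        · simpa using h₂ i
      · intro k
        refine Fin.addCases (fun i => ?_) (fun i => ?_) k
        · simpa using h₁' i
        · simpa using h₂' i
      · rw [Fin.sum_univ_add]
        simp
  obtain ⟨m, g, g', hg, hg', hsum⟩ := key
  exact ⟨m, g, g', hsum, fun k => hsq _ (hg k), fun k => hsq _ (hg' k)⟩

end Dedekind

section Chart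

open scoped IntermediateField.algebraAdjoinAdjoin
open Fermat.Agent.S24.A564.SO

variable {K F : Type*} [Field K] [Field F] [Algebra K F]

theorem inv_natCast_mem_of_dvd [CharZero K] (O : ValuationSubring K) {a N : ℕ} (hN : N ≠ 0)
    (h : a ∣ N) (hO : (N : K)⁻¹ ∈ O) : (a : K)⁻¹ ∈ O := by
  obtain ⟨b, rfl⟩ := h
  have ha : (a : K) ≠ 0 := Nat.cast_ne_zero.mpr (left_ne_zero_of_mul hN)
  have hb : (b : K) ≠ 0 := Nat.cast_ne_zero.mpr (right_ne_zero_of_mul hN)
  have : (a : K)⁻¹ = (b : K) * ((a * b : ℕ) : K)⁻¹ := by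
    push_cast
    field_simp
  rw [this]
  exact mul_mem (natCast_mem O b) hO

/-- **One chart.**  `x` transcendental, `F` finite over `K(x)`, `div f = 2 E`.  There are finitely
many functions `h j` and `N ≠ 0` such that at every place `P` off the support of `E` at which `x`
is regular with value `cx`, and every valuation subring `O ∋ 1/N` of `K` with `cx ∈ O`:
`f(P) = (h j)(P)² · (unit of O)` for some `j`. -/
theorem exists_chart_data [IsAlgClosed K] [CharZero K] [Algebra.IsAlgebraic ℚ K] [IsCurveOver K F]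
    (x : F) [FiniteDimensional K⟮x⟯ F]
    (f : F) (hf : f ≠ 0) (E : Place K F → ℤ) (hE : ∀ P : Place K F, P.ord f = 2 * E P) :
    ∃ (N : ℕ) (m : ℕ) (h : Fin m → F), N ≠ 0 ∧
      ∀ P : Place K F, E P = 0 → ∀ cx : K, HasVal P x cx →
        ∀ O : ValuationSubring K, (N : K)⁻¹ ∈ O → cx ∈ O →
        ∃ (j : Fin m) (c d : K), HasVal P f c ∧ HasVal P (h j) d ∧ c ≠ 0 ∧ d ≠ 0 ∧
          c / d ^ 2 ∈ O ∧ d ^ 2 / c ∈ O := by
  classical
  let R := Algebra.adjoin K {x}
  let B := integralClosure R F
  have : IsPrincipalIdealRing R := adjoin_isPrincipalIdealRing x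
  have : IsDedekindDomain B := IsIntegralClosure.isDedekindDomain R K⟮x⟯ F B
  have : IsFractionRing B F := IsIntegralClosure.isFractionRing_of_finite_extension R K⟮x⟯ F B
  have heven : ∀ w : HeightOneSpectrum B, ∃ e : ℤ, WithZero.log (w.valuation F f) = 2 * e := by
    intro w
    have h1 := Place_ofHeightOneSpectrum_ord (K := K) (F := F) w f
    rw [hE] at h1
    exact ⟨-E (Place.ofHeightOneSpectrum (K := K) w), by linarith⟩
  obtain ⟨m, g, g', hsum, hβ, hβ'⟩ := exists_sqrt_data (B := B) hf heven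
  choose β hβ using hβ
  choose β' hβ' using hβ'
  have hspread : ∀ b : B, ∃ N : ℕ, N ≠ 0 ∧ ∀ (P : Place K F) (cx cb : K), HasVal P x cx →
      HasVal P (b : F) cb → ∀ O : ValuationSubring K, (N : K)⁻¹ ∈ O → cx ∈ O → cb ∈ O :=
    fun b => exists_nat_forall_hasVal_mem x (b : F) b.2
  choose Nf hNf0 hNf using hspread
  let N : ℕ := (∏ k, Nf (β k)) * (∏ k, Nf (β' k))
  have hN0 : N ≠ 0 := mul_ne_zero (Finset.prod_ne_zero_iff.mpr fun k _ => hNf0 _)
    (Finset.prod_ne_zero_iff.mpr fun k _ => hNf0 _)
  refine ⟨N, m, g, hN0, ?_⟩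
  intro P hEP cx hxv O hO hcx
  have hord : P.ord f = 0 := by rw [hE, hEP, mul_zero]
  have hfmem : f ∈ P.toValuationSubring := Place_mem_of_ord_nonneg P hord.ge
  have hfinv : f⁻¹ ∈ P.toValuationSubring :=
    Place_mem_of_ord_nonneg P (by rw [P.ord_inv, hord, neg_zero])
  obtain ⟨c, hc⟩ := exists_hasVal P hfmem
  have hc0 : c ≠ 0 := hc.ne_zero_of_inv_mem hfinv hf
  have hR : R ≤ Place_subalgebra P := Place_adjoin_le P hxv.mem
  have hB : ∀ b : B, (b : F) ∈ P.toValuationSubring := fun b =>
    Place_mem_of_isIntegral P hR b.2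
  have hmem_of_sq : ∀ (y : F) (b : B), y ^ 2 = algebraMap B F b * f →
      y ∈ P.toValuationSubring := by
    intro y b hy
    rcases P.toValuationSubring.mem_or_inv_mem y with h | h
    · exact h
    · have : y = y ^ 2 * y⁻¹ := by
        rcases eq_or_ne y 0 with rfl | hy0
        · simp
        · field_simp
      rw [this, hy]
      exact mul_mem (mul_mem (hB b) hfmem) h
  have hdata : ∀ (y : F) (b : B), y ^ 2 = algebraMap B F b * f → Nf b ∣ N →
      ∃ d : K, HasVal P y d ∧ d ^ 2 / c ∈ O := by
    intro y b hy hdvd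
    obtain ⟨d, hd⟩ := exists_hasVal P (hmem_of_sq y b hy)
    obtain ⟨cb, hcb⟩ := exists_hasVal P (hB b)
    have h1 : HasVal P (y ^ 2) (d ^ 2) := hd.pow 2
    have h2 : HasVal P (algebraMap B F b * f) (cb * c) := hcb.mul hc
    rw [hy] at h1
    have h3 : d ^ 2 = cb * c := h1.unique h2
    refine ⟨d, hd, ?_⟩
    have : d ^ 2 / c = cb := by
      rw [h3]
      field_simp
    rw [this]
    exact hNf b P cx cb hxv hcb O (inv_natCast_mem_of_dvd O hN0 hdvd hO) hcx
  have hdvd1 : ∀ k, Nf (β k) ∣ N := fun k =>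
    Dvd.dvd.mul_right (Finset.dvd_prod_of_mem _ (Finset.mem_univ k)) _
  have hdvd2 : ∀ k, Nf (β' k) ∣ N := fun k =>
    Dvd.dvd.mul_left (Finset.dvd_prod_of_mem _ (Finset.mem_univ k)) _
  choose d hd hdO using fun k => hdata (g k) (β k) (hβ k) (hdvd1 k)
  choose d' hd' hdO' using fun k => hdata (g' k) (β' k) (hβ' k) (hdvd2 k)
  have hsumval : HasVal P f (∑ k, d k * d' k) := by
    have := HasVal.sum (P := P) Finset.univ (fun k => g k * g' k) (fun k => d k * d' k)
      (fun k _ => (hd k).mul (hd' k))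
    rwa [← hsum] at this
  have hcsum : c = ∑ k, d k * d' k := hc.unique hsumval
  have h1 : ∀ k, O.valuation (d k ^ 2 / c) ≤ 1 := fun k =>
    (O.valuation_le_one_iff _).mpr (hdO k)
  have h1' : ∀ k, O.valuation (d' k ^ 2 / c) ≤ 1 := fun k =>
    (O.valuation_le_one_iff _).mpr (hdO' k)
  have hex : ∃ k, 1 ≤ O.valuation (d k * d' k / c) := by
    by_contra hcon
    push Not at hcon
    have : O.valuation (∑ k, d k * d' k / c) < 1 :=
      Valuation.map_sum_lt O.valuation one_ne_zero (fun k _ => hcon k)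
    rw [← Finset.sum_div, ← hcsum, div_self hc0, map_one] at this
    exact lt_irrefl _ this
  obtain ⟨k, hk⟩ := hex
  have hprod : O.valuation (d k ^ 2 / c) * O.valuation (d' k ^ 2 / c)
      = O.valuation (d k * d' k / c) ^ 2 := by
    rw [← map_mul, ← map_pow]
    congr 1
    field_simp
  have hk1 : O.valuation (d k ^ 2 / c) = 1 := by
    refine le_antisymm (h1 k) ?_
    by_contra hlt
    push Not at hlt
    have h2 : O.valuation (d k ^ 2 / c) * O.valuation (d' k ^ 2 / c) < 1 := by
      calc _ ≤ O.valuation (d k ^ 2 / c) * 1 := by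
            gcongr
            exact h1' k
        _ = O.valuation (d k ^ 2 / c) := mul_one _
        _ < 1 := hlt
    rw [hprod] at h2
    have h3 : 1 ≤ O.valuation (d k * d' k / c) ^ 2 := one_le_pow₀ hk
    exact absurd h2 (not_lt.mpr h3)
  have hdk0 : d k ≠ 0 := by
    intro h0
    rw [h0] at hk1
    simp at hk1
  refine ⟨k, c, d k, hc, hd k, hc0, hdk0, ?_, hdO k⟩
  rw [← O.valuation_le_one_iff]
  have : c / d k ^ 2 = (d k ^ 2 / c)⁻¹ := by rw [inv_div]
  rw [this, map_inv₀, hk1, inv_one]

end Chart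

section TwoCharts

variable {K F : Type*} [Field K] [Field F] [Algebra K F]

theorem adjoin_simple_inv_eq (x : F) : K⟮x⁻¹⟯ = K⟮x⟯ := by
  refine le_antisymm ?_ ?_
  · rw [IntermediateField.adjoin_simple_le_iff]
    exact inv_mem (IntermediateField.mem_adjoin_simple_self K x)
  · rw [IntermediateField.adjoin_simple_le_iff]
    have := inv_mem (IntermediateField.mem_adjoin_simple_self K x⁻¹)
    rwa [inv_inv] at this

theorem finiteDimensional_of_eq {L L' : IntermediateField K F} (h : L = L')
    [FiniteDimensional L F] : FiniteDimensional L' F := by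
  subst h
  infer_instance

/-- **Two charts.**  `F` finite over `K(x)`, `div f = 2 E`: there are finitely many functions
`h j` and `N ≠ 0` such that at every place `P` off the support of `E` and every valuation
subring `O ∋ 1/N` of `K`: `f(P) = (h j)(P)² · (unit of O)` for some `j`. -/
theorem exists_local_sqrt_data_of_finite [IsAlgClosed K] [CharZero K] [Algebra.IsAlgebraic ℚ K]
    [IsCurveOver K F] (x : F) [FiniteDimensional K⟮x⟯ F]
    (f : F) (hf : f ≠ 0) (E : Place K F → ℤ) (hE : ∀ P : Place K F, P.ord f = 2 * E P) :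
    ∃ (N : ℕ) (m : ℕ) (h : Fin m → F), N ≠ 0 ∧
      ∀ P : Place K F, E P = 0 → ∀ O : ValuationSubring K, (N : K)⁻¹ ∈ O →
        ∃ (j : Fin m) (c d : K), HasVal P f c ∧ HasVal P (h j) d ∧ c ≠ 0 ∧ d ≠ 0 ∧
          c / d ^ 2 ∈ O ∧ d ^ 2 / c ∈ O := by
  have : FiniteDimensional K⟮x⁻¹⟯ F := finiteDimensional_of_eq (adjoin_simple_inv_eq x).symm
  obtain ⟨N₁, m₁, h₁, hN₁, H₁⟩ := exists_chart_data x f hf E hE
  obtain ⟨N₂, m₂, h₂, hN₂, H₂⟩ := exists_chart_data x⁻¹ f hf E hE
  refine ⟨N₁ * N₂, m₁ + m₂, Fin.append h₁ h₂, mul_ne_zero hN₁ hN₂, ?_⟩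
  intro P hEP O hO
  have hO₁ : (N₁ : K)⁻¹ ∈ O :=
    inv_natCast_mem_of_dvd O (mul_ne_zero hN₁ hN₂) (Dvd.intro _ rfl) hO
  have hO₂ : (N₂ : K)⁻¹ ∈ O :=
    inv_natCast_mem_of_dvd O (mul_ne_zero hN₁ hN₂) (Dvd.intro_left _ rfl) hO
  have chart2 : ∀ cx' : K, HasVal P x⁻¹ cx' → cx' ∈ O →
      ∃ (j : Fin (m₁ + m₂)) (c d : K), HasVal P f c ∧ HasVal P (Fin.append h₁ h₂ j) d ∧ c ≠ 0 ∧
        d ≠ 0 ∧ c / d ^ 2 ∈ O ∧ d ^ 2 / c ∈ O := by
    intro cx' hv hmem
    obtain ⟨j, c, d, hc, hd, hc0, hd0, h1, h2⟩ := H₂ P hEP cx' hv O hO₂ hmem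
    exact ⟨Fin.natAdd m₁ j, c, d, hc, by simpa using hd, hc0, hd0, h1, h2⟩
  by_cases hxP : x ∈ P.toValuationSubring
  · obtain ⟨cx, hcx⟩ := exists_hasVal P hxP
    by_cases hcxO : cx ∈ O
    · obtain ⟨j, c, d, hc, hd, hc0, hd0, h1, h2⟩ := H₁ P hEP cx hcx O hO₁ hcxO
      exact ⟨Fin.castAdd m₂ j, c, d, hc, by simpa using hd, hc0, hd0, h1, h2⟩
    · have hcx0 : cx ≠ 0 := fun h => hcxO (h ▸ zero_mem O)
      exact chart2 cx⁻¹ (hcx.inv hcx0) ((O.mem_or_inv_mem cx).resolve_left hcxO)
  · refine chart2 0 ?_ (zero_mem O)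
    unfold HasVal
    rw [map_zero, sub_zero, ValuationSubring.inv_mem_nonunits_iff]
    exact Or.inr hxP

end TwoCharts

/-! ### Function fields of one variable (verbatim copy of the S27-A leaf `T0` of helper5774, on
`origin/helper9506:Fermat/Agent/S27/T0.lean`; only the namespace differs) -/

section T0

open KaehlerDifferential TensorProduct

variable {K F : Type*} [Field K] [Field F] [Algebra K F]

section basis

open scoped IntermediateField.algebraAdjoinAdjoin

theorem formallyEtale_aeval {ι : Type*} {v : ι → F} (hb : AlgebraicIndependent K v)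
    [Algebra.IsSeparable (IntermediateField.adjoin K (Set.range v)) F] :
    ((MvPolynomial.aeval v : MvPolynomial ι K →ₐ[K] F) : MvPolynomial ι K →+* F).FormallyEtale := by
  have h1 : (hb.aevalEquiv : MvPolynomial ι K →+* Algebra.adjoin K (Set.range v)).FormallyEtale := by
    unfold RingHom.FormallyEtale
    let _ : Algebra (MvPolynomial ι K) (Algebra.adjoin K (Set.range v)) :=
      (hb.aevalEquiv : MvPolynomial ι K →+* Algebra.adjoin K (Set.range v)).toAlgebra
    let e : MvPolynomial ι K ≃ₐ[MvPolynomial ι K] Algebra.adjoin K (Set.range v) :=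
      AlgEquiv.ofRingEquiv (f := hb.aevalEquiv.toRingEquiv) (fun x => rfl)
    exact Algebra.FormallyEtale.of_equiv e
  have h2 : (algebraMap (Algebra.adjoin K (Set.range v))
      (IntermediateField.adjoin K (Set.range v))).FormallyEtale :=
    RingHom.formallyEtale_algebraMap.mpr
      (Algebra.FormallyEtale.of_isLocalization (nonZeroDivisors (Algebra.adjoin K (Set.range v))))
  have h3 : (algebraMap (IntermediateField.adjoin K (Set.range v)) F).FormallyEtale :=
    RingHom.formallyEtale_algebraMap.mpr (Algebra.FormallyEtale.of_isSeparable _ F)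
  have h := (h1.comp h2).comp h3
  convert h using 1
  ext p
  · simp
  · simp

end basis

theorem nonempty_basis_kaehler {ι : Type*} {v : ι → F} (hb : AlgebraicIndependent K v)
    [Algebra.IsSeparable (IntermediateField.adjoin K (Set.range v)) F] :
    Nonempty (Module.Basis ι F Ω[F⁄K]) := by
  have hf := formallyEtale_aeval hb
  let _ : Algebra (MvPolynomial ι K) F :=
    ((MvPolynomial.aeval v : MvPolynomial ι K →ₐ[K] F) : MvPolynomial ι K →+* F).toAlgebra
  have : IsScalarTower K (MvPolynomial ι K) F :=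
    IsScalarTower.of_algebraMap_eq (fun c => by
      simp [RingHom.algebraMap_toAlgebra])
  have : Algebra.FormallyEtale (MvPolynomial ι K) F := hf
  exact ⟨((mvPolynomialBasis K ι).baseChange F).map
    (tensorKaehlerEquivOfFormallyEtale K (MvPolynomial ι K) F)⟩

theorem exists_transcendental_finiteDimensional [CharZero K] [Algebra.EssFiniteType K F]
    (h : Module.finrank F Ω[F⁄K] = 1) :
    ∃ x : F, Transcendental K x ∧ FiniteDimensional K⟮x⟯ F := by
  obtain ⟨s, hs, hsep⟩ := exists_isTranscendenceBasis_and_isSeparable_of_perfectField K F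
  have hsep' : Algebra.IsSeparable (IntermediateField.adjoin K (Set.range ((↑) : s → F))) F := by
    convert! hsep <;> simp
  obtain ⟨b⟩ := nonempty_basis_kaehler hs.1
  have hcard : Module.finrank F Ω[F⁄K] = Fintype.card s := Module.finrank_eq_card_basis b
  rw [h] at hcard
  obtain ⟨x, hx⟩ := Finset.card_eq_one.mp (by simpa using hcard.symm)
  subst hx
  refine ⟨x, ?_, ?_⟩
  · have hxmem : x ∈ ({x} : Finset F) := by simp
    exact hs.1.transcendental ⟨x, hxmem⟩
  · have hsep2 : Algebra.IsSeparable K⟮x⟯ F := by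
      convert! hsep <;> simp
    have : Algebra.IsAlgebraic K⟮x⟯ F := Algebra.IsSeparable.isAlgebraic _ _
    have : Algebra.EssFiniteType K⟮x⟯ F := Algebra.EssFiniteType.of_comp K K⟮x⟯ F
    exact Algebra.finite_of_essFiniteType_of_isAlgebraic

end T0

section Main

variable {K F : Type*} [Field K] [Field F] [Algebra K F]

/-- **Geometric half of W5** (`ℓ = 2`), general form.  `K` algebraically closed and algebraic over
`ℚ`, `F/K` a curve, `div f = 2 E`.  There are finitely many functions `h j` and `N ≠ 0` such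
that at every place `P` off the support of `E` and every valuation subring `O ∋ 1/N` of `K`:
`f(P) = c`, `(h j)(P) = d`, `c, d ≠ 0` and `c / d²` is a unit of `O`, for some `j`. -/
theorem exists_local_sqrt_data [IsAlgClosed K] [CharZero K] [Algebra.IsAlgebraic ℚ K]
    [IsCurveOver K F] [Algebra.EssFiniteType K F]
    (f : F) (hf : f ≠ 0) (E : Place K F → ℤ) (hE : ∀ P : Place K F, P.ord f = 2 * E P) :
    ∃ (N : ℕ) (m : ℕ) (h : Fin m → F), N ≠ 0 ∧
      ∀ P : Place K F, E P = 0 → ∀ O : ValuationSubring K, (N : K)⁻¹ ∈ O →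
        ∃ (j : Fin m) (c d : K), HasVal P f c ∧ HasVal P (h j) d ∧ c ≠ 0 ∧ d ≠ 0 ∧
          c / d ^ 2 ∈ O ∧ d ^ 2 / c ∈ O := by
  obtain ⟨x, -, hfin⟩ := exists_transcendental_finiteDimensional (K := K) (F := F)
    IsCurveOver.finrank_kaehler
  exact exists_local_sqrt_data_of_finite x f hf E hE

/-- `ℚ̄` is algebraic over `ℚ` for the default `ℚ`-algebra structure. -/
theorem isAlgebraic_rat_algebraicClosure : Algebra.IsAlgebraic ℚ (AlgebraicClosure ℚ) := by
  have h := AlgebraicClosure.isAlgebraic ℚ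
  have e : (DivisionRing.toRatAlgebra : Algebra ℚ (AlgebraicClosure ℚ))
      = AlgebraicClosure.instAlgebra ℚ := Subsingleton.elim _ _
  rw [e]
  exact h

/-- The same statement with the values spelled out (`f - c ∈ 𝔪_P`), for `K = ℚ̄`, in the exact
shape of leaf `WC4` (`exists_local_sqrt_data`) of the WC skeleton of helper5316. -/
theorem exists_local_sqrt_data_Qbar {F : Type*} [Field F] [Algebra (AlgebraicClosure ℚ) F]
    [IsCurveOver (AlgebraicClosure ℚ) F] [Algebra.EssFiniteType (AlgebraicClosure ℚ) F]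
    (f : F) (hf : f ≠ 0) (E : Divisor (AlgebraicClosure ℚ) F)
    (hE : ∀ P : Place (AlgebraicClosure ℚ) F, P.ord f = 2 * E P) :
    ∃ (N : ℕ) (m : ℕ) (h : Fin m → F), N ≠ 0 ∧
      ∀ P : Place (AlgebraicClosure ℚ) F, E P = 0 →
        ∀ O : ValuationSubring (AlgebraicClosure ℚ), (N : AlgebraicClosure ℚ)⁻¹ ∈ O →
        ∃ (j : Fin m) (c d : AlgebraicClosure ℚ),
          f - algebraMap (AlgebraicClosure ℚ) F c ∈ P.toValuationSubring.nonunits ∧
          h j - algebraMap (AlgebraicClosure ℚ) F d ∈ P.toValuationSubring.nonunits ∧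
          c ≠ 0 ∧ d ≠ 0 ∧ c / d ^ 2 ∈ O ∧ d ^ 2 / c ∈ O :=
  haveI := isAlgebraic_rat_algebraicClosure
  exists_local_sqrt_data f hf (fun P => E P) hE

end Main

end Fermat.Agent.S17.WC.H7738
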