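/-
S17 / WC — open stabilisers of functions (needed by the WC1 glue `WC/L1Skel.lean`).
This file is helper2434's `Fermat/Agent/S17/BR/Smooth.lean` (BR leaf SMOOTH, proofs by helper2434),
copied with ONLY the namespace changed to `Fermat.Agent.S17.WC.H7716.Open` (so that it can sit in
one import closure with any BR skeleton/leaf file).  Original header:


S17 / package BR (bridge) — leaf SMOOTH (frozen statements, v1, helper34; proofs helper2434).

Setting: `F₀ ⊆ ℚ((q))`, `F = laurentBaseChange ℚ̄ F₀ ⊆ ℚ̄((q))`, `G_ℚ` acts on `F` coefficientwise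
(`ModularCurve.arithmeticGalois F₀ σ • f`, `coe_arithmeticGalois_smul`).

* `exists_fixingSubgroup_smul_eq` : every `f ∈ F` is fixed by `Gal(ℚ̄/L)` for a number field `L`.
  Proof: induction on `Subfield.closure` (`mem_laurentBaseChange_iff`): constants `a` use
  `L = ℚ(a)`, elements of `F₀` use `L = ⊥`, `+ * ⁻¹ -` use `L₁ ⊔ L₂`.
* `forall_smul_eq_iff` : the fixed field of `G_ℚ` in `F` is `F₀`.
  Proof: (⇐) `coeffMap_coeffEmb`.  (⇒) all coefficients of `f` are `G_ℚ`-fixed, so `f = coeffEmb g`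
  with `g ∈ ℚ((q))`; write `f * s = r` with `r, s` in the `ℚ̄`-span of `coeffEmb '' F₀`
  (`IntermediateField.mem_adjoin_iff_div`, `Algebra.adjoin_eq_span`).  For a `ℚ`-linear functional
  `φ : ℚ̄ → ℚ` let `lam φ` be the coefficientwise application of `φ`; on the span it takes values in
  `F₀` and satisfies `lam φ (coeffEmb g * h) = g * lam φ h`.  Choosing `φ` with `lam φ s ≠ 0` gives
  `g = lam φ r / lam φ s ∈ F₀`.
-/
import Mathlib
import Fermat.Prelude.Def_ModularCurve_ArithmeticGalois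

set_option autoImplicit false

open ModularCurve AlgebraicCurve IntermediateField

namespace Fermat.Agent.S17.WC.H7716.Open

namespace H2434

/-- Coefficientwise application of a `ℚ`-linear functional `ℚ̄ → ℚ` to a Laurent series. -/
noncomputable def lam (φ : AlgebraicClosure ℚ →ₗ[ℚ] ℚ) (h : LaurentSeries (AlgebraicClosure ℚ)) :
    LaurentSeries ℚ :=
  h.map φ

@[simp]
theorem lam_coeff (φ : AlgebraicClosure ℚ →ₗ[ℚ] ℚ) (h : LaurentSeries (AlgebraicClosure ℚ))
    (n : ℤ) : (lam φ h).coeff n = φ (h.coeff n) :=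
  rfl

theorem lam_zero (φ : AlgebraicClosure ℚ →ₗ[ℚ] ℚ) : lam φ 0 = 0 := by
  ext n
  simp

theorem lam_add (φ : AlgebraicClosure ℚ →ₗ[ℚ] ℚ) (h k : LaurentSeries (AlgebraicClosure ℚ)) :
    lam φ (h + k) = lam φ h + lam φ k := by
  ext n
  simp

theorem lam_single_mul (φ : AlgebraicClosure ℚ →ₗ[ℚ] ℚ) (c : AlgebraicClosure ℚ)
    (h : LaurentSeries (AlgebraicClosure ℚ)) :
    lam φ (HahnSeries.single 0 c * h) = lam (φ.comp (LinearMap.mulLeft ℚ c)) h := by
  ext n
  rw [lam_coeff, lam_coeff, HahnSeries.coeff_single_zero_mul]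
  rfl

theorem lam_coeffEmb (φ : AlgebraicClosure ℚ →ₗ[ℚ] ℚ) (x : LaurentSeries ℚ) :
    lam φ (coeffEmb (AlgebraicClosure ℚ) x) = HahnSeries.single 0 (φ 1) * x := by
  ext n
  rw [lam_coeff, coeffEmb_coeff, HahnSeries.coeff_single_zero_mul, Algebra.algebraMap_eq_smul_one,
    map_smul, smul_eq_mul, mul_comm]

theorem single_zero_mem (F₀ : IntermediateField ℚ (LaurentSeries ℚ)) (c : ℚ) :
    (HahnSeries.single 0 c : LaurentSeries ℚ) ∈ F₀ := by
  rw [← algebraMap_laurentSeries_eq_single]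
  exact F₀.algebraMap_mem c

theorem exists_eq_coeffEmb_of_mem_closure (F₀ : IntermediateField ℚ (LaurentSeries ℚ))
    {x : LaurentSeries (AlgebraicClosure ℚ)}
    (hx : x ∈ Submonoid.closure
      (⇑(coeffEmb (AlgebraicClosure ℚ)) '' (F₀ : Set (LaurentSeries ℚ)))) :
    ∃ y ∈ F₀, coeffEmb (AlgebraicClosure ℚ) y = x := by
  induction hx using Submonoid.closure_induction with
  | mem x hx =>
    obtain ⟨y, hy, rfl⟩ := hx
    exact ⟨y, hy, rfl⟩
  | one => exact ⟨1, F₀.one_mem, map_one _⟩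
  | mul x y _ _ hx hy =>
    obtain ⟨a, ha, rfl⟩ := hx
    obtain ⟨b, hb, rfl⟩ := hy
    exact ⟨a * b, F₀.mul_mem ha hb, map_mul _ _ _⟩

/-- On the subalgebra generated by `coeffEmb '' F₀` (= its `ℚ̄`-span), the maps `lam φ` take values
in `F₀` and commute with multiplication by series with rational coefficients. -/
theorem lam_span (F₀ : IntermediateField ℚ (LaurentSeries ℚ))
    {h : LaurentSeries (AlgebraicClosure ℚ)}
    (hh : h ∈ Algebra.adjoin (AlgebraicClosure ℚ)
      (⇑(coeffEmb (AlgebraicClosure ℚ)) '' (F₀ : Set (LaurentSeries ℚ)))) :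
    ∀ (φ : AlgebraicClosure ℚ →ₗ[ℚ] ℚ) (g : LaurentSeries ℚ),
      lam φ h ∈ F₀ ∧ lam φ (coeffEmb (AlgebraicClosure ℚ) g * h) = g * lam φ h := by
  have h1 : h ∈ Subalgebra.toSubmodule (Algebra.adjoin (AlgebraicClosure ℚ)
      (⇑(coeffEmb (AlgebraicClosure ℚ)) '' (F₀ : Set (LaurentSeries ℚ)))) := hh
  rw [Algebra.adjoin_eq_span] at h1
  clear hh
  induction h1 using Submodule.span_induction with
  | mem x hx =>
    obtain ⟨y, hy, rfl⟩ := exists_eq_coeffEmb_of_mem_closure F₀ hx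
    intro φ g
    refine ⟨?_, ?_⟩
    · rw [lam_coeffEmb]
      exact F₀.mul_mem (single_zero_mem F₀ _) hy
    · rw [← map_mul, lam_coeffEmb, lam_coeffEmb, mul_left_comm]
  | zero =>
    intro φ g
    rw [mul_zero, lam_zero, mul_zero]
    exact ⟨F₀.zero_mem, rfl⟩
  | add x y _ _ hx hy =>
    intro φ g
    obtain ⟨hx1, hx2⟩ := hx φ g
    obtain ⟨hy1, hy2⟩ := hy φ g
    refine ⟨?_, ?_⟩
    · rw [lam_add]
      exact F₀.add_mem hx1 hy1
    · rw [mul_add, lam_add, lam_add, hx2, hy2, mul_add]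
  | smul c x _ hx =>
    intro φ g
    obtain ⟨hx1, hx2⟩ := hx (φ.comp (LinearMap.mulLeft ℚ c)) g
    rw [Algebra.smul_def, algebraMap_laurentSeries_eq_single]
    refine ⟨?_, ?_⟩
    · rw [lam_single_mul]
      exact hx1
    · rw [mul_left_comm, lam_single_mul, lam_single_mul, hx2]

/-- A Laurent series all of whose coefficients are rational is `coeffEmb` of its image under any
retraction. -/
theorem coeffEmb_lam_of_retraction (ρ : AlgebraicClosure ℚ →ₗ[ℚ] ℚ)
    (hρ : ∀ q : ℚ, ρ (algebraMap ℚ (AlgebraicClosure ℚ) q) = q)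
    (f : LaurentSeries (AlgebraicClosure ℚ))
    (hf : ∀ n : ℤ, f.coeff n ∈ Set.range (algebraMap ℚ (AlgebraicClosure ℚ))) :
    coeffEmb (AlgebraicClosure ℚ) (lam ρ f) = f := by
  ext n
  obtain ⟨q, hq⟩ := hf n
  rw [coeffEmb_coeff, lam_coeff, ← hq, hρ]

theorem exists_retraction :
    ∃ ρ : AlgebraicClosure ℚ →ₗ[ℚ] ℚ, ∀ q : ℚ, ρ (algebraMap ℚ (AlgebraicClosure ℚ) q) = q := by
  obtain ⟨ρ, hρ⟩ := LinearMap.exists_leftInverse_of_injective
    (Algebra.linearMap ℚ (AlgebraicClosure ℚ))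
    (LinearMap.ker_eq_bot.mpr (algebraMap ℚ (AlgebraicClosure ℚ)).injective)
  exact ⟨ρ, fun q => LinearMap.congr_fun hρ q⟩

end H2434

variable (F₀ : IntermediateField ℚ (LaurentSeries ℚ))

/-- (BR2) Smoothness of the Galois action on functions. -/
theorem exists_fixingSubgroup_smul_eq (f : ↥(laurentBaseChange (AlgebraicClosure ℚ) F₀)) :
    ∃ L : IntermediateField ℚ (AlgebraicClosure ℚ), FiniteDimensional ℚ L ∧
      ∀ σ ∈ L.fixingSubgroup, arithmeticGalois F₀ σ • f = f := by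
  suffices h : ∃ L : IntermediateField ℚ (AlgebraicClosure ℚ), FiniteDimensional ℚ L ∧
      ∀ σ ∈ L.fixingSubgroup,
        coeffMap ((σ : AlgebraicClosure ℚ ≃ₐ[ℚ] AlgebraicClosure ℚ) :
          AlgebraicClosure ℚ →+* AlgebraicClosure ℚ) (f : LaurentSeries (AlgebraicClosure ℚ))
          = (f : LaurentSeries (AlgebraicClosure ℚ)) by
    obtain ⟨L, hL, hσ⟩ := h
    exact ⟨L, hL, fun σ hσL => Subtype.ext (hσ σ hσL)⟩
  have hf := f.2
  rw [mem_laurentBaseChange_iff] at hf
  generalize (f : LaurentSeries (AlgebraicClosure ℚ)) = x at hf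
  induction hf using Subfield.closure_induction with
  | mem y hy =>
    rcases hy with ⟨a, rfl⟩ | ⟨z, hz, rfl⟩
    · have : Algebra.IsAlgebraic ℚ (AlgebraicClosure ℚ) := AlgebraicClosure.isAlgebraic ℚ
      refine ⟨ℚ⟮a⟯, IntermediateField.adjoin.finiteDimensional
        (Algebra.IsIntegral.isIntegral a), fun σ hσ => ?_⟩
      rw [coeffMap_algebraMap]
      congr 1
      exact (IntermediateField.mem_fixingSubgroup_iff _ σ).mp hσ a (mem_adjoin_simple_self ℚ a)
    · exact ⟨⊥, inferInstance, fun σ _ => coeffMap_coeffEmb σ z⟩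
  | one => exact ⟨⊥, inferInstance, fun σ _ => map_one _⟩
  | add x y _ _ hx hy =>
    obtain ⟨L₁, hL₁, h₁⟩ := hx
    obtain ⟨L₂, hL₂, h₂⟩ := hy
    refine ⟨L₁ ⊔ L₂, inferInstance, fun σ hσ => ?_⟩
    rw [map_add, h₁ σ (IntermediateField.fixingSubgroup_antitone le_sup_left hσ),
      h₂ σ (IntermediateField.fixingSubgroup_antitone le_sup_right hσ)]
  | neg x _ hx =>
    obtain ⟨L₁, hL₁, h₁⟩ := hx
    exact ⟨L₁, hL₁, fun σ hσ => by rw [map_neg, h₁ σ hσ]⟩
  | inv x _ hx =>
    obtain ⟨L₁, hL₁, h₁⟩ := hx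
    exact ⟨L₁, hL₁, fun σ hσ => by rw [map_inv₀, h₁ σ hσ]⟩
  | mul x y _ _ hx hy =>
    obtain ⟨L₁, hL₁, h₁⟩ := hx
    obtain ⟨L₂, hL₂, h₂⟩ := hy
    refine ⟨L₁ ⊔ L₂, inferInstance, fun σ hσ => ?_⟩
    rw [map_mul, h₁ σ (IntermediateField.fixingSubgroup_antitone le_sup_left hσ),
      h₂ σ (IntermediateField.fixingSubgroup_antitone le_sup_right hσ)]

/-- (BR3) The fixed field of `G_ℚ` is `F₀`. -/
theorem forall_smul_eq_iff (f : ↥(laurentBaseChange (AlgebraicClosure ℚ) F₀)) :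
    (∀ σ : AlgebraicClosure ℚ ≃ₐ[ℚ] AlgebraicClosure ℚ, arithmeticGalois F₀ σ • f = f) ↔
      ∃ g ∈ F₀, coeffEmb (AlgebraicClosure ℚ) g = (f : LaurentSeries (AlgebraicClosure ℚ)) := by
  constructor
  · intro hfix
    -- all coefficients are rational
    have hcoeff : ∀ n : ℤ, (f : LaurentSeries (AlgebraicClosure ℚ)).coeff n
        ∈ Set.range (algebraMap ℚ (AlgebraicClosure ℚ)) := by
      intro n
      have : IsAlgClosure ℚ (AlgebraicClosure ℚ) := AlgebraicClosure.instIsAlgClosure ℚ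
      rw [InfiniteGalois.mem_range_algebraMap_iff_fixed]
      intro σ
      have h1 := congrArg Subtype.val (hfix σ)
      rw [coe_arithmeticGalois_smul] at h1
      have h2 := congrArg (fun s : LaurentSeries (AlgebraicClosure ℚ) => s.coeff n) h1
      simpa using h2
    obtain ⟨ρ, hρ⟩ := H2434.exists_retraction
    have hg := H2434.coeffEmb_lam_of_retraction ρ hρ _ hcoeff
    set g := H2434.lam ρ (f : LaurentSeries (AlgebraicClosure ℚ)) with hg_def
    refine ⟨g, ?_, hg⟩
    -- write `f = r / s`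
    have hf : (f : LaurentSeries (AlgebraicClosure ℚ)) ∈ IntermediateField.adjoin (AlgebraicClosure ℚ)
        (⇑(coeffEmb (AlgebraicClosure ℚ)) '' (F₀ : Set (LaurentSeries ℚ))) := f.2
    rw [IntermediateField.mem_adjoin_iff_div] at hf
    obtain ⟨r, hr', s, hs', hfrs⟩ := hf
    by_cases hs0 : s = 0
    · have hf0 : (f : LaurentSeries (AlgebraicClosure ℚ)) = 0 := by
        rw [hfrs, hs0, div_zero]
      have hg0 : g = 0 := by
        rw [hg_def, hf0, H2434.lam_zero]
      rw [hg0]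
      exact F₀.zero_mem
    · have hfs : coeffEmb (AlgebraicClosure ℚ) g * s = r := by
        rw [hg, hfrs, div_mul_cancel₀ _ hs0]
      -- a coefficient of `s` which is not zero, and a functional detecting it
      obtain ⟨n, hn⟩ : ∃ n : ℤ, s.coeff n ≠ 0 := by
        by_contra hcon
        apply hs0
        ext n
        by_contra hne
        exact hcon ⟨n, hne⟩
      obtain ⟨φ, hφ⟩ : ∃ φ : AlgebraicClosure ℚ →ₗ[ℚ] ℚ, φ (s.coeff n) ≠ 0 := by
        by_contra hcon
        apply hn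
        rw [← Module.forall_dual_apply_eq_zero_iff ℚ]
        intro φ
        by_contra hne
        exact hcon ⟨φ, hne⟩
      obtain ⟨hy, hmul⟩ := H2434.lam_span F₀ hs' φ g
      obtain ⟨hx, -⟩ := H2434.lam_span F₀ hr' φ g
      have hy0 : H2434.lam φ s ≠ 0 := by
        intro h0
        apply hφ
        have := congrArg (fun t : LaurentSeries ℚ => t.coeff n) h0
        simpa using this
      rw [hfs] at hmul
      have hgxy : g = H2434.lam φ r / H2434.lam φ s := by
        rw [hmul, mul_div_assoc, div_self hy0, mul_one]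
      rw [hgxy]
      exact F₀.div_mem hx hy
  · rintro ⟨g, -, hg⟩ σ
    apply Subtype.ext
    rw [coe_arithmeticGalois_smul, ← hg]
    exact coeffMap_coeffEmb σ g

end Fermat.Agent.S17.WC.H7716.Open
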