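/-
S17 / package WC (weak Mordell–Weil), number-theoretic core of leaf W5 — helper2916.

"Ramification-safe" divisibility of the valuation of a norm (Mathlib only):

  if `l ∣ ord_P(x)` for EVERY prime `P` of `L` above the prime `p` of `K`,
  then `l ∣ ord_p (N_{L/K} x)`.

(One must NOT pass to a Galois closure and divide by the ramification index; this is the form
needed for `ord_p f_t(D) ≡ 0 mod l` in W5, with `L = K(P)` and `x = f_t(P)`.)

Main statements:
* `count_relNorm_eq`      : exact formula for the multiplicity of `p` in `relNorm R I`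
* `dvd_count_relNorm`     : ideal version of the divisibility
* `dvd_log_intValuation_intNorm` : for `y ∈ S` (Dedekind domains `R ⊆ S`)
* `dvd_log_valuation_norm`       : for `x ∈ L = Frac S`, `N = Algebra.norm K`
* `NumberField.dvd_log_valuation_norm` : for number fields `K ⊆ L`, `𝓞 K`, `𝓞 L`.
-/
import Mathlib

set_option autoImplicit false

namespace Fermat.Agent.S17.WC.H2916

open IsDedekindDomain Ideal UniqueFactorizationMonoid

section Ideals

variable {R S : Type*} [CommRing R] [CommRing S]
  [IsDedekindDomain R] [IsDedekindDomain S] [Algebra R S] [Module.Finite R S]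
  [Module.IsTorsionFree R S]

/-- The exponent `s` with `relNorm R P = (P ∩ R) ^ s` (junk if `P` is not prime). -/
noncomputable def relExp (P : Ideal S) : ℕ := by
  classical
  exact if hP : P.IsPrime then
    (haveI := hP; haveI := Ideal.over_under (A := R) P
      (exists_relNorm_eq_pow_of_isPrime P (P.under R)).choose) else 0

theorem relNorm_eq_under_pow_relExp (P : Ideal S) [hP : P.IsPrime] :
    relNorm R P = (P.under R) ^ relExp (R := R) P := by
  classical
  have := Ideal.over_under (A := R) P
  have h := (exists_relNorm_eq_pow_of_isPrime P (P.under R)).choose_spec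
  simp only [relExp, dif_pos hP]
  exact h

open Classical in
/-- Multiplicity of a maximal ideal `p` in the relative norm of a product of nonzero primes. -/
theorem count_normalizedFactors_prod_map_relNorm (p : Ideal R)
    (m : Multiset (Ideal S)) (hm : ∀ P ∈ m, P.IsPrime ∧ P ≠ ⊥) :
    Multiset.count p (normalizedFactors ((m.map (relNorm R)).prod)) =
      (m.map fun P => if P.under R = p then relExp (R := R) P else 0).sum := by
  induction m using Multiset.induction with
  | empty =>
    simp only [Multiset.map_zero, Multiset.prod_zero, Multiset.sum_zero]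
    rw [Ideal.one_eq_top]
    have : normalizedFactors (⊤ : Ideal R) = 0 := by
      rw [← Ideal.one_eq_top]; exact normalizedFactors_one
    rw [this, Multiset.count_zero]
  | cons P m ih =>
    have hP := hm P (Multiset.mem_cons_self P m)
    have := hP.1
    have hm' : ∀ Q ∈ m, Q.IsPrime ∧ Q ≠ ⊥ := fun Q hQ => hm Q (Multiset.mem_cons_of_mem hQ)
    have hne1 : relNorm R P ≠ 0 := by
      rw [Ideal.zero_eq_bot, Ne, relNorm_eq_bot_iff]; exact hP.2
    have hne2 : ((m.map (relNorm R)).prod) ≠ 0 := by
      rw [Ne, Multiset.prod_eq_zero_iff]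
      intro h0
      obtain ⟨Q, hQ, hQ0⟩ := Multiset.mem_map.mp h0
      rw [Ideal.zero_eq_bot, relNorm_eq_bot_iff] at hQ0
      exact (hm' Q hQ).2 hQ0
    rw [Multiset.map_cons, Multiset.prod_cons, normalizedFactors_mul hne1 hne2,
      Multiset.count_add, ih hm', Multiset.map_cons, Multiset.sum_cons]
    congr 1
    -- the contribution of `P`
    have hq0 : P.under R ≠ ⊥ := by
      intro h
      have h1 := hne1
      rw [relNorm_eq_under_pow_relExp (R := R) P, h] at h1
      have h2 : relExp (R := R) P = 0 := by
        by_contra h3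
        exact h1 (by rw [Ideal.zero_eq_bot, ← Ideal.zero_eq_bot, zero_pow h3])
      have h4 : P.under R = ⊥ := h
      have h5 : (⊥ : Ideal R).map (algebraMap R S) ≤ P := by simp
      -- `P ∩ R = ⊥` forces `P = ⊥` in an integral extension
      exact hP.2 (Ideal.eq_bot_of_comap_eq_bot (R := R) (by rw [← Ideal.under_def]; exact h4))
    have hqp : (P.under R).IsPrime := Ideal.IsPrime.under R P
    have hqirr : Irreducible (P.under R) :=
      (Ideal.prime_of_isPrime hq0 hqp).irreducible
    rw [relNorm_eq_under_pow_relExp (R := R) P, normalizedFactors_pow,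
      normalizedFactors_irreducible hqirr, normalize_eq, Multiset.count_nsmul,
      Multiset.count_singleton]
    by_cases hpq : P.under R = p
    · rw [if_pos hpq, if_pos hpq.symm, mul_one]
    · rw [if_neg hpq, if_neg (fun h => hpq h.symm), mul_zero]

open Classical in
/-- Exact formula: the multiplicity of `p` in `relNorm R I`. -/
theorem count_relNorm_eq (p : Ideal R) (I : Ideal S) (hI : I ≠ ⊥) :
    Multiset.count p (normalizedFactors (relNorm R I)) =
      ((normalizedFactors I).map fun P => if P.under R = p then relExp (R := R) P else 0).sum := by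
  have hm : ∀ P ∈ normalizedFactors I, P.IsPrime ∧ P ≠ ⊥ := fun P hP =>
    ⟨Ideal.isPrime_of_prime (prime_of_normalized_factor P hP),
      (prime_of_normalized_factor P hP).ne_zero⟩
  rw [← count_normalizedFactors_prod_map_relNorm p _ hm, ← map_multiset_prod,
    Ideal.prod_normalizedFactors_eq_self hI]

open Classical in
/-- If `l` divides the multiplicity in `I` of every prime of `S` above `p`, then `l` divides the
multiplicity of `p` in `relNorm R I`. -/
theorem dvd_count_relNorm (l : ℕ) (p : Ideal R) (I : Ideal S)
    (hI : I ≠ ⊥)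
    (h : ∀ P : Ideal S, P.IsPrime → P ≠ ⊥ → P.under R = p →
      l ∣ Multiset.count P (normalizedFactors I)) :
    l ∣ Multiset.count p (normalizedFactors (relNorm R I)) := by
  rw [count_relNorm_eq p I hI, Finset.sum_multiset_map_count]
  refine Finset.dvd_sum fun P hP => ?_
  rw [Multiset.mem_toFinset] at hP
  by_cases hPp : P.under R = p
  · rw [if_pos hPp, smul_eq_mul]
    exact Dvd.dvd.mul_right (h P (Ideal.isPrime_of_prime (prime_of_normalized_factor P hP))
      (prime_of_normalized_factor P hP).ne_zero hPp) _
  · rw [if_neg hPp, smul_zero]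
    exact dvd_zero l

/-- `log` of the integral valuation = minus the multiplicity. -/
theorem log_intValuation_eq {T : Type*} [CommRing T] [IsDedekindDomain T]
    (v : HeightOneSpectrum T) {r : T} (hr : r ≠ 0) :
    WithZero.log (v.intValuation r) =
      -((Multiset.count v.asIdeal (normalizedFactors (Ideal.span {r} : Ideal T)) : ℕ) : ℤ) := by
  classical
  have hsr : (Ideal.span {r} : Ideal T) ≠ 0 := by
    rw [Ideal.zero_eq_bot, Ne, Ideal.span_singleton_eq_bot]; exact hr
  rw [v.intValuation_if_neg hr, WithZero.log_exp,
    Ideal.count_associates_factors_eq hsr v.isPrime v.ne_bot]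

/-- Valuation of the integral norm: divisibility version. -/
theorem dvd_log_intValuation_intNorm (l : ℕ) (p : HeightOneSpectrum R) (y : S) (hy : y ≠ 0)
    (h : ∀ P : HeightOneSpectrum S, P.asIdeal.under R = p.asIdeal →
      (l : ℤ) ∣ WithZero.log (P.intValuation y)) :
    (l : ℤ) ∣ WithZero.log (p.intValuation (Algebra.intNorm R S y)) := by
  classical
  have hN : Algebra.intNorm R S y ≠ 0 := by
    rw [Ne, Algebra.intNorm_eq_zero]; exact hy
  have hI : (Ideal.span {y} : Ideal S) ≠ ⊥ := by
    rw [Ne, Ideal.span_singleton_eq_bot]; exact hy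
  rw [log_intValuation_eq p hN, ← relNorm_singleton, dvd_neg, Int.natCast_dvd_natCast]
  refine dvd_count_relNorm l p.asIdeal _ hI fun P hP hP0 hPp => ?_
  have := h ⟨P, hP, hP0⟩ hPp
  rw [log_intValuation_eq _ hy, dvd_neg, Int.natCast_dvd_natCast] at this
  exact this

end Ideals

section Fields

variable {R S : Type*} [CommRing R] [CommRing S]
  [IsDedekindDomain R] [IsDedekindDomain S] [Algebra R S] [Module.Finite R S]
  [Module.IsTorsionFree R S]
  {K L : Type*} [Field K] [Field L] [Algebra R K] [IsFractionRing R K] [Algebra S L]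
  [IsFractionRing S L] [Algebra K L] [Algebra R L] [IsScalarTower R K L] [IsScalarTower R S L]
  [FiniteDimensional K L]

/-- **Valuation of a norm, divisibility form.**  If `l ≠ 0` divides `ord_P x` for every prime `P`
of `S` above `p`, then `l` divides `ord_p (N_{L/K} x)`. -/
theorem dvd_log_valuation_norm (l : ℕ) (hl : l ≠ 0) (p : HeightOneSpectrum R) (x : L) (hx : x ≠ 0)
    (h : ∀ P : HeightOneSpectrum S, P.asIdeal.under R = p.asIdeal →
      (l : ℤ) ∣ WithZero.log (P.valuation L x)) :
    (l : ℤ) ∣ WithZero.log (p.valuation K (Algebra.norm K x)) := by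
  have : Algebra.IsIntegral R S := inferInstance
  have : IsIntegralClosure S R L := IsIntegralClosure.of_isIntegrallyClosed S R L
  obtain ⟨a, b, hb, rfl⟩ := IsFractionRing.div_surjective S x
  have hb0 : b ≠ 0 := nonZeroDivisors.ne_zero hb
  have ha0 : a ≠ 0 := by
    rintro rfl
    simp at hx
  have hbL : algebraMap S L b ≠ 0 := by
    rw [Ne, map_eq_zero_iff _ (IsFractionRing.injective S L)]; exact hb0
  have haL : algebraMap S L a ≠ 0 := by
    rw [Ne, map_eq_zero_iff _ (IsFractionRing.injective S L)]; exact ha0
  -- `y = a * b ^ (l - 1)`, so that `(a / b) * b ^ l = y`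
  obtain ⟨k, rfl⟩ : ∃ k, l = k + 1 := Nat.exists_eq_succ_of_ne_zero hl
  set y : S := a * b ^ k with hy
  have hy0 : y ≠ 0 := mul_ne_zero ha0 (pow_ne_zero _ hb0)
  have hxy : algebraMap S L a / algebraMap S L b * (algebraMap S L b) ^ (k + 1) =
      algebraMap S L y := by
    rw [hy, map_mul, map_pow, pow_succ]
    field_simp
  -- valuations of `y` above `p`
  have hyP : ∀ P : HeightOneSpectrum S, P.asIdeal.under R = p.asIdeal →
      ((k + 1 : ℕ) : ℤ) ∣ WithZero.log (P.intValuation y) := by
    intro P hP
    have h1 := h P hP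
    have hvx : P.valuation L (algebraMap S L a / algebraMap S L b) ≠ 0 :=
      (Valuation.ne_zero_iff _).mpr hx
    have hvb : P.valuation L (algebraMap S L b) ≠ 0 := (Valuation.ne_zero_iff _).mpr hbL
    have h3 := congrArg (fun z => WithZero.log (P.valuation L z)) hxy
    simp only [map_mul, map_pow] at h3
    rw [WithZero.log_mul hvx (pow_ne_zero _ hvb), WithZero.log_pow,
      HeightOneSpectrum.valuation_of_algebraMap, HeightOneSpectrum.valuation_of_algebraMap] at h3
    rw [← h3]
    refine dvd_add h1 ?_
    rw [nsmul_eq_mul]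
    exact Dvd.intro _ rfl
  have key := dvd_log_intValuation_intNorm (k + 1) p y hy0 hyP
  -- translate back
  have hNb : Algebra.intNorm R S b ≠ 0 := by rw [Ne, Algebra.intNorm_eq_zero]; exact hb0
  have hNx : Algebra.norm K (algebraMap S L a / algebraMap S L b) ≠ 0 := by
    rw [Ne, Algebra.norm_eq_zero_iff]; exact hx
  have h4 := congrArg (fun z => WithZero.log (p.valuation K (Algebra.norm K z))) hxy
  simp only [map_mul, map_pow] at h4
  rw [← Algebra.algebraMap_intNorm (A := R) (K := K) (L := L) (B := S) y,
    ← Algebra.algebraMap_intNorm (A := R) (K := K) (L := L) (B := S) b,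
    HeightOneSpectrum.valuation_of_algebraMap, HeightOneSpectrum.valuation_of_algebraMap,
    WithZero.log_mul ((Valuation.ne_zero_iff _).mpr hNx)
      (pow_ne_zero _ (p.intValuation_ne_zero _ hNb)), WithZero.log_pow] at h4
  have h5 : WithZero.log (p.valuation K (Algebra.norm K (algebraMap S L a / algebraMap S L b))) =
      WithZero.log (p.intValuation (Algebra.intNorm R S y)) -
        (k + 1) • WithZero.log (p.intValuation (Algebra.intNorm R S b)) := by
    rw [← h4]; ring
  rw [h5]
  refine dvd_sub key ?_
  rw [nsmul_eq_mul]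
  exact Dvd.intro _ rfl

end Fields

section NumberFields

open NumberField

variable {K L : Type*} [Field K] [Field L] [NumberField K] [NumberField L] [Algebra K L]

/-- **Number field version.**  `K ⊆ L` number fields, `p` a prime of `𝓞 K`, `x ∈ Lˣ`, `l ≠ 0`:
if `l ∣ ord_P x` for every prime `P` of `𝓞 L` above `p`, then `l ∣ ord_p (N_{L/K} x)`. -/
theorem dvd_log_valuation_norm_numberField (l : ℕ) (hl : l ≠ 0) (p : HeightOneSpectrum (𝓞 K))
    (x : L) (hx : x ≠ 0)
    (h : ∀ P : HeightOneSpectrum (𝓞 L), P.asIdeal.under (𝓞 K) = p.asIdeal →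
      (l : ℤ) ∣ WithZero.log (P.valuation L x)) :
    (l : ℤ) ∣ WithZero.log (p.valuation K (Algebra.norm K x)) :=
  dvd_log_valuation_norm l hl p x hx h

end NumberFields

end Fermat.Agent.S17.WC.H2916
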