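/-
S17 / package WC (weak Mordell–Weil), abstract parts of leaf W5 — helper2916.  Mathlib only.

* `exists_valuation_eq_one_of_sum_eq_one`, `dvd_log_valuation_of_sum_eq_one` :
    the "unit ideal identity" step: if `∑ aᵢ (gᵢ ^ l / f) = 1` with all `aᵢ`, `gᵢ ^ l / f`
    `v`-integral, then `v f = v (gᵢ) ^ l` for some `i`, so `l ∣ ord_v f`.
* `prod_orbit_eq_norm` : the "`K(P)`-norm" step (ramification-safe form of W5):
    `G = Gal(Ω/K)` acts on `X`, the stabiliser of `P` is the fixing subgroup of a finite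
    `L/K`, `φ : X → Ω` is equivariant.  Then `φ P ∈ L` and
    `∏_{P' ∈ orbit P} φ P' = N_{L/K}(φ P)`.
-/
import Mathlib

set_option autoImplicit false

namespace Fermat.Agent.S17.WC.H2916

section UnitIdentity

variable {L Γ₀ : Type*} [Field L] [LinearOrderedCommGroupWithZero Γ₀]

/-- If a sum of products of `v`-integral elements is `1`, one of the second factors is a
`v`-unit. -/
theorem exists_valuation_eq_one_of_sum_eq_one (v : Valuation L Γ₀) {ι : Type*} (s : Finset ι)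
    (a φ : ι → L) (ha : ∀ i ∈ s, v (a i) ≤ 1) (hφ : ∀ i ∈ s, v (φ i) ≤ 1)
    (hsum : ∑ i ∈ s, a i * φ i = 1) : ∃ i ∈ s, v (φ i) = 1 := by
  by_contra hcon
  push Not at hcon
  have hlt : ∀ i ∈ s, v (a i * φ i) < 1 := by
    intro i hi
    rw [map_mul]
    have h1 : v (φ i) < 1 := lt_of_le_of_ne (hφ i hi) (hcon i hi)
    calc v (a i) * v (φ i) ≤ 1 * v (φ i) := mul_le_mul_left (ha i hi) _
      _ = v (φ i) := one_mul _
      _ < 1 := h1
  have := v.map_sum_lt (one_ne_zero) hlt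
  rw [hsum, map_one] at this
  exact lt_irrefl _ this

/-- **Unit-ideal identity ⟹ `l`-divisibility of the valuation** (W5, local step). -/
theorem dvd_log_valuation_of_sum_eq_one (v : Valuation L (WithZero (Multiplicative ℤ))) (l : ℕ)
    {ι : Type*} (s : Finset ι) (a g : ι → L) (f : L) (hf : f ≠ 0)
    (ha : ∀ i ∈ s, v (a i) ≤ 1) (hφ : ∀ i ∈ s, v (g i ^ l / f) ≤ 1)
    (hsum : ∑ i ∈ s, a i * (g i ^ l / f) = 1) :
    ∃ i ∈ s, WithZero.log (v f) = l • WithZero.log (v (g i)) := by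
  obtain ⟨i, hi, h1⟩ := exists_valuation_eq_one_of_sum_eq_one v s a (fun i => g i ^ l / f) ha hφ hsum
  refine ⟨i, hi, ?_⟩
  have hvf : v f ≠ 0 := (Valuation.ne_zero_iff _).mpr hf
  rw [map_div₀, map_pow, div_eq_one_iff_eq hvf] at h1
  rw [← h1, WithZero.log_pow]

theorem dvd_log_valuation_of_sum_eq_one' (v : Valuation L (WithZero (Multiplicative ℤ))) (l : ℕ)
    {ι : Type*} (s : Finset ι) (a g : ι → L) (f : L) (hf : f ≠ 0)
    (ha : ∀ i ∈ s, v (a i) ≤ 1) (hφ : ∀ i ∈ s, v (g i ^ l / f) ≤ 1)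
    (hsum : ∑ i ∈ s, a i * (g i ^ l / f) = 1) :
    (l : ℤ) ∣ WithZero.log (v f) := by
  obtain ⟨i, -, h⟩ := dvd_log_valuation_of_sum_eq_one v l s a g f hf ha hφ hsum
  rw [h, nsmul_eq_mul]
  exact Dvd.intro _ rfl

end UnitIdentity

section OrbitNorm

variable {K Ω : Type*} [Field K] [Field Ω] [Algebra K Ω] [IsAlgClosed Ω] [IsGalois K Ω]
  {X : Type*} [MulAction (Ω ≃ₐ[K] Ω) X]

/-- Every `K`-embedding of an intermediate field into `Ω` is the restriction of an automorphism. -/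
theorem exists_algEquiv_restrict_eq (L : IntermediateField K Ω) (τ : L →ₐ[K] Ω) :
    ∃ σ : Ω ≃ₐ[K] Ω, ∀ x : L, σ x = τ x := by
  have hsplit : ∀ s : Ω, IsIntegral K s ∧
      (Polynomial.map (algebraMap K Ω) (minpoly K s)).Splits := fun s =>
    ⟨(Algebra.IsIntegral.isIntegral s), IsAlgClosed.splits _⟩
  obtain ⟨φ, hφ⟩ := IntermediateField.exists_algHom_of_splits hsplit τ
  refine ⟨AlgEquiv.ofBijective φ (Algebra.IsAlgebraic.algHom_bijective φ), fun x => ?_⟩
  have := congrArg (fun ψ : L →ₐ[K] Ω => ψ x) hφ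
  simpa using this

/-- **Orbit product = norm from the field of definition.**  If the stabiliser of `P` is the
fixing subgroup of a finite extension `L/K` and `φ` is Galois-equivariant, then `φ P ∈ L`, and the
product of `φ` over the orbit of `P` is the norm `N_{L/K} (φ P)`. -/
theorem prod_orbit_eq_norm (L : IntermediateField K Ω) [FiniteDimensional K L] (P : X)
    (hstab : ∀ σ : Ω ≃ₐ[K] Ω, σ • P = P ↔ σ ∈ L.fixingSubgroup)
    (φ : X → Ω) (hφ : ∀ (σ : Ω ≃ₐ[K] Ω) (x : X), φ (σ • x) = σ (φ x))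
    (O : Finset X) (hO : ∀ x : X, x ∈ O ↔ ∃ σ : Ω ≃ₐ[K] Ω, σ • P = x) :
    ∃ hmem : φ P ∈ L,
      ∏ x ∈ O, φ x = algebraMap K Ω (Algebra.norm K (⟨φ P, hmem⟩ : L)) := by
  classical
  -- `φ P` is fixed by the fixing subgroup of `L`, hence lies in `L`
  have hmem : φ P ∈ L := by
    rw [← InfiniteGalois.fixedField_fixingSubgroup L, IntermediateField.mem_fixedField_iff]
    intro σ hσ
    rw [← hφ, (hstab σ).mpr hσ]
  refine ⟨hmem, ?_⟩
  rw [Algebra.norm_eq_prod_embeddings K Ω]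
  -- a chosen extension of every embedding
  choose ext hext using exists_algEquiv_restrict_eq (K := K) (Ω := Ω) L
  symm
  refine Finset.prod_bij (fun τ _ => ext τ • P) ?_ ?_ ?_ ?_
  · intro τ _
    exact (hO _).mpr ⟨ext τ, rfl⟩
  · intro τ _ τ' _ h
    have h1 : ((ext τ')⁻¹ * ext τ) • P = P := by
      rw [mul_smul, h, ← mul_smul, inv_mul_cancel, one_smul]
    have h2 := (hstab _).mp h1
    rw [IntermediateField.mem_fixingSubgroup_iff] at h2
    apply AlgHom.ext
    intro x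
    have h3 := h2 x x.2
    rw [AlgEquiv.mul_apply] at h3
    rw [← hext τ x, ← hext τ' x]
    have h4 := congrArg (ext τ') h3
    rw [AlgEquiv.aut_inv, AlgEquiv.apply_symm_apply] at h4
    exact h4
  · intro x hx
    obtain ⟨σ, rfl⟩ := (hO x).mp hx
    refine ⟨(σ : Ω →ₐ[K] Ω).comp L.val, Finset.mem_univ _, ?_⟩
    set τ : L →ₐ[K] Ω := (σ : Ω →ₐ[K] Ω).comp L.val with hτ
    have h1 : (σ⁻¹ * ext τ) ∈ L.fixingSubgroup := by
      rw [IntermediateField.mem_fixingSubgroup_iff]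
      intro y hy
      rw [AlgEquiv.mul_apply, hext τ ⟨y, hy⟩, hτ]
      simp
    have h2 := (hstab _).mpr h1
    rw [mul_smul] at h2
    have h3 := congrArg (fun z => σ • z) h2
    simp only [smul_inv_smul] at h3
    exact h3
  · intro τ _
    rw [hφ, ← hext τ ⟨φ P, hmem⟩]

end OrbitNorm

end Fermat.Agent.S17.WC.H2916
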