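/-
S17 / package WC (weak Mordell–Weil) — ARITHMETIC HALF OF W5, complete (helper2916).
Mathlib + `NormVal2916` + `OrbitNorm2916` only.

Main statement `exists_prod_eq_of_local` (general exponent `l ≠ 0`; `evenAway_of_local` is the
case `l = 2`, i.e. leaf WC3 of the skeleton proposal of helper5316, with `EvenAway` unfolded):

  `K ⊆ ℚ̄` a number field, `T` any `G_ℚ`-set, `D : T →₀ ℤ` stable under `G_K`,
  `ev, h j : T → ℚ̄` equivariant along `supp D`, `ev ≠ 0` on `supp D`, and LOCALLY at every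
  valuation ring `O ⊆ ℚ̄` with `1/N ∈ O`:  `ev P = (h j P) ^ l · (unit of O)` for some `j`.
  Then `∏_P ev(P)^{D(P)} = a ∈ Kˣ` and `l ∣ ord_v a` for every prime `v` of `K` with `N ∉ v`.

Proof.  `supp D` is a disjoint union of `G_K`-orbits and `D` is constant on each orbit, so it
suffices to treat the product of `ev` over one orbit `𝒪 = G_K · P`.
  * (`prod_orbit_eq_norm_pow`) Let `L = K(ev P, h j P : j)`.  `Q = σ P ↦ σ|_L` is a well defined
    equivariant map `𝒪 → Hom_K(L, ℚ̄)` all of whose fibres have the same cardinality `r`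
    (no assumption on the stabiliser of `P`), hence `∏_{Q ∈ 𝒪} ev Q = N_{L/K}(ev P) ^ r`.
  * (`exists_valuationSubring_dominating`) every prime `𝔓` of `L` is dominated by a valuation
    ring `O` of `ℚ̄`; if `N ∉ 𝔓` then `1/N ∈ O`, so `ev P / (h j P)^l` is a unit at `𝔓`:
    `l ∣ ord_𝔓 (ev P)`.
  * (`dvd_log_valuation_norm_numberField`, `NormVal2916`) hence `l ∣ ord_v N_{L/K}(ev P)` for
    `N ∉ v` — the ramification-safe step (no division by ramification indices).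
-/
import Mathlib
import Fermat.Agent.S17.WC.NormVal2916
import Fermat.Agent.S17.WC.OrbitNorm2916

set_option autoImplicit false

open IsDedekindDomain NumberField

namespace Fermat.Agent.S17.WC.H2916

section Ext

variable {L Ω Γ₀ : Type*} [Field L] [Field Ω] [Algebra L Ω] [LinearOrderedCommGroupWithZero Γ₀]

/-- Every valuation `v` of a subfield `L ⊆ Ω` is dominated by a valuation subring `A` of `Ω`:
`v`-integral elements lie in `A`, and elements of `L` which are units of `A` are `v`-units. -/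
theorem exists_valuationSubring_dominating (v : Valuation L Γ₀) :
    ∃ A : ValuationSubring Ω, (∀ y : L, v y ≤ 1 → algebraMap L Ω y ∈ A) ∧
      ∀ y : L, y ≠ 0 → algebraMap L Ω y ∈ A → (algebraMap L Ω y)⁻¹ ∈ A → v y = 1 := by
  obtain ⟨A, hA, hloc⟩ := IsLocalRing.exists_factor_valuationRing
    ((algebraMap L Ω).comp v.valuationSubring.subtype)
  have hmem : ∀ y : L, v y ≤ 1 → algebraMap L Ω y ∈ A := fun y hy =>
    hA ⟨y, (Valuation.mem_valuationSubring_iff v y).mpr hy⟩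
  have key : ∀ y : L, y ≠ 0 → v y ≤ 1 → (algebraMap L Ω y)⁻¹ ∈ A → v y = 1 := by
    intro y hy0 hy hinv
    set y' : v.valuationSubring := ⟨y, (Valuation.mem_valuationSubring_iff v y).mpr hy⟩ with hy'
    have hu : IsUnit (((algebraMap L Ω).comp v.valuationSubring.subtype).codRestrict
        A.toSubring hA y') := by
      rw [isUnit_iff_exists_inv]
      refine ⟨⟨(algebraMap L Ω y)⁻¹, hinv⟩, Subtype.ext ?_⟩
      show algebraMap L Ω y * (algebraMap L Ω y)⁻¹ = 1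
      exact mul_inv_cancel₀ (by simpa using hy0)
    have hyu : IsUnit y' := hloc.map_nonunit y' hu
    obtain ⟨z, hz⟩ := isUnit_iff_exists_inv.mp hyu
    have hz' : y * (z : L) = 1 := congrArg Subtype.val hz
    have hvz : v (z : L) ≤ 1 := (Valuation.mem_valuationSubring_iff v _).mp z.2
    have h1 : v y * v (z : L) = 1 := by rw [← map_mul, hz', map_one]
    refine le_antisymm hy ?_
    calc (1 : Γ₀) = v y * v (z : L) := h1.symm
      _ ≤ v y * 1 := mul_le_mul_right hvz _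
      _ = v y := mul_one _
  refine ⟨A, hmem, fun y hy0 h1 h2 => ?_⟩
  rcases le_total (v y) 1 with h | h
  · exact key y hy0 h h2
  · have hv0 : v y ≠ 0 := (Valuation.ne_zero_iff _).mpr hy0
    have hinv : v y⁻¹ ≤ 1 := by
      rw [map_inv₀]
      exact inv_le_one_of_one_le₀ h
    have h3 := key y⁻¹ (inv_ne_zero hy0) hinv (by rw [map_inv₀, inv_inv]; exact h1)
    rw [map_inv₀, inv_eq_one] at h3
    exact h3

end Ext

section Arith

local notation "Qb" => AlgebraicClosure ℚ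

/-- `ℚ̄/ℚ` is algebraic, for the canonical `ℚ`-algebra structure of a characteristic zero field. -/
local instance isAlgebraicQb : Algebra.IsAlgebraic ℚ Qb := AlgebraicClosure.isAlgebraic ℚ

local instance isAlgClosureQb : IsAlgClosure ℚ Qb := ⟨inferInstance, inferInstance⟩

variable (K : IntermediateField ℚ Qb)

local instance isGaloisQb : IsGalois K Qb := IsGalois.tower_top_intermediateField K

/-- The `K`-embedding of `L ⊆ ℚ̄` induced by an element of the fixing subgroup of `K`. -/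
noncomputable def restr (L : IntermediateField K Qb) (σ : K.fixingSubgroup) : L →ₐ[K] Qb :=
  ((IntermediateField.fixingSubgroupEquiv K σ : Qb ≃ₐ[K] Qb) : Qb →ₐ[K] Qb).comp L.val

theorem restr_apply (L : IntermediateField K Qb) (σ : K.fixingSubgroup) (y : L) :
    restr K L σ y = (σ : Qb ≃ₐ[ℚ] Qb) (y : Qb) := rfl

/-- Any two `K`-embeddings of `L` differ by an element of `G_K`. -/
theorem exists_mem_fixingSubgroup_comp (L : IntermediateField K Qb) (τ τ' : L →ₐ[K] Qb) :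
    ∃ g : K.fixingSubgroup, ∀ y : L, (g : Qb ≃ₐ[ℚ] Qb) (τ y) = τ' y := by
  obtain ⟨σ, hσ⟩ := exists_algEquiv_restrict_eq (K := K) (Ω := Qb) L τ
  obtain ⟨σ', hσ'⟩ := exists_algEquiv_restrict_eq (K := K) (Ω := Qb) L τ'
  refine ⟨(IntermediateField.fixingSubgroupEquiv K).symm (σ' * σ⁻¹), fun y => ?_⟩
  show (σ' * σ⁻¹) (τ y) = τ' y
  rw [← hσ y, AlgEquiv.mul_apply, AlgEquiv.aut_inv, AlgEquiv.symm_apply_apply, hσ']

/-- **Orbit product = power of a norm**, with NO hypothesis on the stabiliser of `P`: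
if `𝒪` is the (finite) `G_K`-orbit of `P`, `ev` and the `h j` are equivariant on `𝒪` and
`L = K(ev P, h j P)`, then `∏_{Q ∈ 𝒪} ev Q = N_{L/K}(ev P) ^ r` for some `r`. -/
theorem prod_orbit_eq_norm_pow {T : Type*} [MulAction (Qb ≃ₐ[ℚ] Qb) T]
    (P : T) (𝒪 : Finset T) (h𝒪 : ∀ Q, Q ∈ 𝒪 ↔ ∃ σ ∈ K.fixingSubgroup, σ • P = Q)
    {ι : Type*} (ev : T → Qb) (h : ι → T → Qb)
    (hev : ∀ σ ∈ K.fixingSubgroup, ∀ Q ∈ 𝒪, ev (σ • Q) = σ (ev Q))
    (hh : ∀ σ ∈ K.fixingSubgroup, ∀ j, ∀ Q ∈ 𝒪, h j (σ • Q) = σ (h j Q))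
    (L : IntermediateField K Qb) [FiniteDimensional K L]
    (hL : L = IntermediateField.adjoin K (insert (ev P) (Set.range fun j => h j P)))
    (x : L) (hx : (x : Qb) = ev P) :
    ∃ r : ℕ, ∏ Q ∈ 𝒪, ev Q = algebraMap K Qb (Algebra.norm K x) ^ r := by
  classical
  have hP : P ∈ 𝒪 := (h𝒪 P).mpr ⟨1, one_mem _, one_smul _ _⟩
  -- chosen group elements
  have hex : ∀ Q : T, ∃ σ : K.fixingSubgroup, Q ∈ 𝒪 → (σ : Qb ≃ₐ[ℚ] Qb) • P = Q := by
    intro Q
    by_cases hQ : Q ∈ 𝒪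
    · obtain ⟨σ, hσ, h⟩ := (h𝒪 Q).mp hQ
      exact ⟨⟨σ, hσ⟩, fun _ => h⟩
    · exact ⟨1, fun h => absurd h hQ⟩
  choose s hs using hex
  let ρ : T → (L →ₐ[K] Qb) := fun Q => restr K L (s Q)
  -- the restriction does not depend on the chosen group element
  have F1 : ∀ σ : K.fixingSubgroup, ρ ((σ : Qb ≃ₐ[ℚ] Qb) • P) = restr K L σ := by
    intro σ
    have hQ : (σ : Qb ≃ₐ[ℚ] Qb) • P ∈ 𝒪 := (h𝒪 _).mpr ⟨σ, σ.2, rfl⟩
    have hsQ := hs _ hQ
    refine IntermediateField.algHom_ext_of_eq_adjoin K hL ?_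
    intro y hy
    rcases hy with rfl | ⟨j, rfl⟩
    · show (s _ : Qb ≃ₐ[ℚ] Qb) (ev P) = (σ : Qb ≃ₐ[ℚ] Qb) (ev P)
      rw [← hev _ (s _).2 P hP, ← hev _ σ.2 P hP, hsQ]
    · show (s _ : Qb ≃ₐ[ℚ] Qb) (h j P) = (σ : Qb ≃ₐ[ℚ] Qb) (h j P)
      rw [← hh _ (s _).2 j P hP, ← hh _ σ.2 j P hP, hsQ]
  -- values of `ev` on the orbit
  have F2 : ∀ Q ∈ 𝒪, ev Q = ρ Q x := by
    intro Q hQ
    show ev Q = (s Q : Qb ≃ₐ[ℚ] Qb) (x : Qb)
    rw [hx, ← hev _ (s Q).2 P hP, hs Q hQ]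
  -- all fibres of `ρ` have the same cardinality
  have F3 : ∀ τ τ' : L →ₐ[K] Qb,
      (𝒪.filter (fun Q => ρ Q = τ)).card ≤ (𝒪.filter (fun Q => ρ Q = τ')).card := by
    intro τ τ'
    obtain ⟨g, hg⟩ := exists_mem_fixingSubgroup_comp K L τ τ'
    refine Finset.card_le_card_of_injOn (fun Q => (g : Qb ≃ₐ[ℚ] Qb) • Q) ?_ ?_
    · intro Q hQ
      obtain ⟨hQ𝒪, hρ⟩ := Finset.mem_filter.mp hQ
      obtain ⟨σ, hσ, rfl⟩ := (h𝒪 Q).mp hQ𝒪
      have e1 : (g : Qb ≃ₐ[ℚ] Qb) • σ • P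
          = ((g * ⟨σ, hσ⟩ : K.fixingSubgroup) : Qb ≃ₐ[ℚ] Qb) • P := by
        rw [Subgroup.coe_mul, mul_smul]
      have e2 : ρ (σ • P) = restr K L ⟨σ, hσ⟩ := F1 ⟨σ, hσ⟩
      refine Finset.mem_coe.mpr (Finset.mem_filter.mpr
        ⟨(h𝒪 _).mpr ⟨_, (g * ⟨σ, hσ⟩).2, e1.symm⟩, ?_⟩)
      show ρ ((g : Qb ≃ₐ[ℚ] Qb) • σ • P) = τ'
      rw [e1, F1]
      apply AlgHom.ext
      intro y
      show (g : Qb ≃ₐ[ℚ] Qb) (σ (y : Qb)) = τ' y
      rw [← hg y, ← hρ, e2]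
      rfl
    · intro Q _ Q' _ hQQ'
      exact MulAction.injective _ hQQ'
  refine ⟨(𝒪.filter (fun Q => ρ Q = L.val)).card, ?_⟩
  have hcard : ∀ τ : L →ₐ[K] Qb,
      (𝒪.filter (fun Q => ρ Q = τ)).card = (𝒪.filter (fun Q => ρ Q = L.val)).card :=
    fun τ => le_antisymm (F3 _ _) (F3 _ _)
  rw [Algebra.norm_eq_prod_embeddings K Qb, ← Finset.prod_pow,
    ← Finset.prod_fiberwise_of_maps_to (g := ρ) (t := Finset.univ) (fun _ _ => Finset.mem_univ _)]
  refine Finset.prod_congr rfl fun τ _ => ?_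
  rw [← hcard τ, ← Finset.prod_const]
  refine Finset.prod_congr rfl fun Q hQ => ?_
  obtain ⟨hQ𝒪, hρ⟩ := Finset.mem_filter.mp hQ
  rw [F2 Q hQ𝒪, hρ]

variable [NumberField K]

/-- The arithmetic half of W5 for ONE orbit. -/
theorem exists_orbit_prod_eq (l : ℕ) (hl : l ≠ 0) (N : ℕ)
    {T : Type*} [MulAction (Qb ≃ₐ[ℚ] Qb) T]
    (P : T) (𝒪 : Finset T) (h𝒪 : ∀ Q, Q ∈ 𝒪 ↔ ∃ σ ∈ K.fixingSubgroup, σ • P = Q)
    {ι : Type*} [Finite ι] (ev : T → Qb) (h : ι → T → Qb)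
    (hev0 : ev P ≠ 0)
    (hev : ∀ σ ∈ K.fixingSubgroup, ∀ Q ∈ 𝒪, ev (σ • Q) = σ (ev Q))
    (hh : ∀ σ ∈ K.fixingSubgroup, ∀ j, ∀ Q ∈ 𝒪, h j (σ • Q) = σ (h j Q))
    (hloc : ∀ O : ValuationSubring Qb, (N : Qb)⁻¹ ∈ O →
      ∃ j, h j P ≠ 0 ∧ ev P / h j P ^ l ∈ O ∧ h j P ^ l / ev P ∈ O) :
    ∃ a : K, a ≠ 0 ∧ (a : Qb) = ∏ Q ∈ 𝒪, ev Q ∧
      ∀ v : HeightOneSpectrum (𝓞 K), (N : 𝓞 K) ∉ v.asIdeal →
        (l : ℤ) ∣ WithZero.log (v.valuation K a) := by
  classical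
  set gens : Set Qb := insert (ev P) (Set.range fun j => h j P) with hgens
  let L : IntermediateField K Qb := IntermediateField.adjoin K gens
  have hfin : gens.Finite := (Set.finite_range _).insert _
  have : Finite gens := hfin
  have hLfd : FiniteDimensional K L :=
    IntermediateField.finiteDimensional_adjoin (fun y _ => Algebra.IsIntegral.isIntegral y)
  have hLnf : NumberField L :=
    { to_charZero := inferInstance
      to_finiteDimensional := Module.Finite.trans K L }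
  have hxmem : ev P ∈ L := IntermediateField.subset_adjoin K gens (Set.mem_insert _ _)
  have hhmem : ∀ j, h j P ∈ L := fun j =>
    IntermediateField.subset_adjoin K gens (Set.mem_insert_of_mem _ ⟨j, rfl⟩)
  set x : L := ⟨ev P, hxmem⟩ with hxdef
  have hx0 : x ≠ 0 := fun h0 => hev0 (congrArg Subtype.val h0)
  obtain ⟨r, hr⟩ := prod_orbit_eq_norm_pow K P 𝒪 h𝒪 ev h hev hh L rfl x rfl
  have hLfree : Module.Free K L := Module.Free.of_divisionRing K L
  refine ⟨Algebra.norm K x ^ r, pow_ne_zero _ (Algebra.norm_ne_zero_iff.mpr hx0), ?_, ?_⟩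
  · rw [hr]
    rfl
  · intro v hv
    rw [map_pow, WithZero.log_pow]
    refine Dvd.dvd.mul_left ?_ _
    apply dvd_log_valuation_norm_numberField l hl v x hx0
    intro 𝔓 h𝔓
    have hN𝔓 : (N : 𝓞 L) ∉ 𝔓.asIdeal := by
      intro hmem
      apply hv
      rw [← h𝔓, Ideal.under, Ideal.mem_comap, map_natCast]
      exact hmem
    obtain ⟨A, hA1, hA2⟩ := exists_valuationSubring_dominating (Ω := Qb) (𝔓.valuation L)
    have hNA : (N : Qb)⁻¹ ∈ A := by
      have hvN : 𝔓.valuation L ((N : L)⁻¹) ≤ 1 := by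
        have h1 : 𝔓.valuation L (algebraMap (𝓞 L) L (N : 𝓞 L)) = 1 :=
          (HeightOneSpectrum.valuation_eq_one_iff_notMem 𝔓).mpr hN𝔓
        rw [map_natCast] at h1
        rw [map_inv₀, h1, inv_one]
      have h2 := hA1 _ hvN
      rwa [map_inv₀, map_natCast] at h2
    obtain ⟨j, hj0, hj1, hj2⟩ := hloc A hNA
    set c : L := ⟨h j P, hhmem j⟩ with hcdef
    have hc0 : c ≠ 0 := fun h0 => hj0 (congrArg Subtype.val h0)
    have hu : 𝔓.valuation L (x / c ^ l) = 1 := by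
      apply hA2 (x / c ^ l) (div_ne_zero hx0 (pow_ne_zero _ hc0))
      · rw [map_div₀, map_pow]
        exact hj1
      · rw [map_div₀, map_pow, inv_div]
        exact hj2
    rw [map_div₀, map_pow,
      div_eq_one_iff_eq (pow_ne_zero _ ((Valuation.ne_zero_iff _).mpr hc0))] at hu
    rw [hu, WithZero.log_pow, nsmul_eq_mul]
    exact Dvd.intro _ rfl

/-- **Arithmetic half of W5** (general exponent `l`).  `D` a `G_K`-stable finitely supported
function on a `G_ℚ`-set, `ev` and `h j` equivariant along `supp D`; if at every valuation ring `O`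
of `ℚ̄` containing `1/N` each value `ev P` is an `l`-th power `(h j P) ^ l` times a unit of `O`,
then `∏_P ev(P)^{D(P)}` is an element of `Kˣ` whose valuation is divisible by `l` at every prime
of `K` not containing `N`. -/
theorem exists_prod_eq_of_local (l : ℕ) (hl : l ≠ 0) (N : ℕ)
    {T : Type*} [MulAction (Qb ≃ₐ[ℚ] Qb) T] (D : T →₀ ℤ)
    (hD : ∀ σ ∈ K.fixingSubgroup, ∀ P : T, D (σ • P) = D P)
    {ι : Type*} [Finite ι] (ev : T → Qb) (h : ι → T → Qb)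
    (hev0 : ∀ P ∈ D.support, ev P ≠ 0)
    (hev : ∀ σ ∈ K.fixingSubgroup, ∀ P ∈ D.support, ev (σ • P) = σ (ev P))
    (hh : ∀ σ ∈ K.fixingSubgroup, ∀ j, ∀ P ∈ D.support, h j (σ • P) = σ (h j P))
    (hloc : ∀ P ∈ D.support, ∀ O : ValuationSubring Qb, (N : Qb)⁻¹ ∈ O →
      ∃ j, h j P ≠ 0 ∧ ev P / h j P ^ l ∈ O ∧ h j P ^ l / ev P ∈ O) :
    ∃ a : K, a ≠ 0 ∧ (a : Qb) = D.prod (fun P n => ev P ^ n) ∧
      ∀ v : HeightOneSpectrum (𝓞 K), (N : 𝓞 K) ∉ v.asIdeal →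
        (l : ℤ) ∣ WithZero.log (v.valuation K a) := by
  classical
  let Good : Qb → Prop := fun z => ∃ a : K, a ≠ 0 ∧ (a : Qb) = z ∧
    ∀ v : HeightOneSpectrum (𝓞 K), (N : 𝓞 K) ∉ v.asIdeal →
      (l : ℤ) ∣ WithZero.log (v.valuation K a)
  have good_one : Good 1 := ⟨1, one_ne_zero, rfl, fun v _ => by simp⟩
  have good_mul : ∀ z z', Good z → Good z' → Good (z * z') := by
    rintro _ _ ⟨a, ha, rfl, hva⟩ ⟨b, hb, rfl, hvb⟩
    refine ⟨a * b, mul_ne_zero ha hb, rfl, fun v hv => ?_⟩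
    rw [map_mul, WithZero.log_mul ((Valuation.ne_zero_iff _).mpr ha)
      ((Valuation.ne_zero_iff _).mpr hb)]
    exact dvd_add (hva v hv) (hvb v hv)
  have good_inv : ∀ z, Good z → Good z⁻¹ := by
    rintro _ ⟨a, ha, rfl, hva⟩
    refine ⟨a⁻¹, inv_ne_zero ha, rfl, fun v hv => ?_⟩
    rw [map_inv₀, WithZero.log_inv]
    exact (dvd_neg.mpr (hva v hv))
  have good_pow : ∀ z (n : ℕ), Good z → Good (z ^ n) := by
    intro z n hz
    induction n with
    | zero => rw [pow_zero]; exact good_one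
    | succ k ih => rw [pow_succ]; exact good_mul _ _ ih hz
  have good_zpow : ∀ z (n : ℤ), Good z → Good (z ^ n) := by
    intro z n hz
    cases n with
    | ofNat k => rw [Int.ofNat_eq_natCast, zpow_natCast]; exact good_pow z k hz
    | negSucc k => rw [zpow_negSucc]; exact good_inv _ (good_pow z _ hz)
  show Good (D.prod fun P n => ev P ^ n)
  rw [Finsupp.prod]
  let q : T → MulAction.orbitRel.Quotient K.fixingSubgroup T := Quotient.mk''
  rw [← Finset.prod_fiberwise_of_maps_to (g := q) (t := D.support.image q)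
    (fun P hP => Finset.mem_image_of_mem q hP)]
  refine Finset.prod_induction _ Good good_mul good_one ?_
  intro ω hω
  obtain ⟨P₀, hP₀, rfl⟩ := Finset.mem_image.mp hω
  set 𝒪 := D.support.filter (fun P => q P = q P₀) with h𝒪def
  have h𝒪 : ∀ Q, Q ∈ 𝒪 ↔ ∃ σ ∈ K.fixingSubgroup, σ • P₀ = Q := by
    intro Q
    rw [h𝒪def, Finset.mem_filter]
    constructor
    · rintro ⟨-, hq⟩
      have hq' : Q ∈ MulAction.orbit K.fixingSubgroup P₀ :=
        MulAction.orbitRel_apply.mp (Quotient.exact' hq)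
      obtain ⟨σ, rfl⟩ := hq'
      exact ⟨σ, σ.2, rfl⟩
    · rintro ⟨σ, hσ, rfl⟩
      refine ⟨?_, ?_⟩
      · rw [Finsupp.mem_support_iff, hD σ hσ]
        exact Finsupp.mem_support_iff.mp hP₀
      · exact Quotient.sound' (MulAction.orbitRel_apply.mpr ⟨⟨σ, hσ⟩, rfl⟩)
  have hsub : ∀ Q ∈ 𝒪, Q ∈ D.support := fun Q hQ => (Finset.mem_filter.mp hQ).1
  have hconst : ∀ Q ∈ 𝒪, D Q = D P₀ := by
    intro Q hQ
    obtain ⟨σ, hσ, rfl⟩ := (h𝒪 Q).mp hQ
    exact hD σ hσ P₀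
  rw [Finset.prod_congr rfl (fun Q hQ => by rw [hconst Q hQ]), Finset.prod_zpow]
  apply good_zpow
  exact exists_orbit_prod_eq K l hl N P₀ 𝒪 h𝒪 ev h (hev0 P₀ hP₀)
    (fun σ hσ Q hQ => hev σ hσ Q (hsub Q hQ)) (fun σ hσ j Q hQ => hh σ hσ j Q (hsub Q hQ))
    (hloc P₀ hP₀)

/-- **Leaf WC3** (`l = 2`; statement of the WC skeleton proposal of helper5316 with `EvenAway`
unfolded and any `NumberField` instance on `K`). -/
theorem evenAway_of_local (N : ℕ) {T : Type*} [MulAction (Qb ≃ₐ[ℚ] Qb) T] (D : T →₀ ℤ)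
    (hD : ∀ σ ∈ K.fixingSubgroup, ∀ P : T, D (σ • P) = D P)
    (ev : T → Qb) (m : ℕ) (h : Fin m → T → Qb)
    (hev0 : ∀ P ∈ D.support, ev P ≠ 0)
    (hev : ∀ σ ∈ K.fixingSubgroup, ∀ P ∈ D.support, ev (σ • P) = σ (ev P))
    (hh : ∀ σ ∈ K.fixingSubgroup, ∀ j, ∀ P ∈ D.support, h j (σ • P) = σ (h j P))
    (hloc : ∀ P ∈ D.support, ∀ O : ValuationSubring Qb, (N : Qb)⁻¹ ∈ O →
      ∃ j, h j P ≠ 0 ∧ ev P / h j P ^ 2 ∈ O ∧ h j P ^ 2 / ev P ∈ O) :
    ∃ a : K, a ≠ 0 ∧ (a : Qb) = D.prod (fun P n => ev P ^ n) ∧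
      ∀ v : HeightOneSpectrum (𝓞 K), (N : 𝓞 K) ∉ v.asIdeal →
        (2 : ℤ) ∣ WithZero.log (v.valuation K a) :=
  exists_prod_eq_of_local K 2 two_ne_zero N D hD ev h hev0 hev hh hloc

end Arith

end Fermat.Agent.S17.WC.H2916
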