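import Fermat.Agent.S17.W.Defs
import Fermat.Agent.S17.WC.LocalSqrt7738
import Fermat.Agent.S17.WC.L1c_7738
import Fermat.Agent.S17.WC.W5Arith2916
import Fermat.Agent.S17.WC.Open7716

/-!
# S17 / WC — leaf WC1 `exists_finite_bad_primes` (W5), COMPLETE (assembled by helper7738)

`H7738.exists_finite_bad_primes` is the VERBATIM statement of `WC.exists_finite_bad_primes` of the
frozen skeleton v1 of helper5016 (`WC/Skel.lean`), with a complete closure (no open leaf):

* glue = the proof of helper7716's refinement `WC/L1Skel.lean` (copied below, leaves rewired);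
* L1a (geometric half, two charts, no Riemann–Roch)  = `H7738.exists_local_sqrt_data`
  (`WC/LocalSqrt7738.lean`, helper7738);
* L1b (arithmetic half, orbit products = norm powers, `Ideal.relNorm`) =
  `H2916.evenAway_of_local` (`WC/W5Arith2916.lean` + `NormVal2916`, `OrbitNorm2916`, helper2916,
  verbatim copies);
* L1c (descent of evenness away from the different)   = `H7738.exists_finite_of_evenAway_ext`
  (`WC/L1c_7738.lean`, helper7738);
* open stabilisers of functions = `H7716.Open.exists_fixingSubgroup_smul_eq` (`WC/Open7716.lean`,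
  helper2434 / helper7716, verbatim copy).
Only `W/Defs.lean` (frozen definitions) is imported from the skeleton.
-/

set_option autoImplicit false

namespace Fermat.Agent.S17.WC.H7738

open AlgebraicCurve ModularCurve Fermat.Agent.S17 Fermat.Agent.S17.W IsDedekindDomain NumberField

open scoped Pointwise

/-! ### Formal properties of relational values (from helper7716's `L1Skel.lean`) -/

section Values

variable {K F : Type*} [Field K] [Field F] [Algebra K F]

/-- Bridge to the frozen evaluation `W.evK`. -/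
theorem evK_eq_of_hasVal {P : Place K F} {f : F} {c : K} (h : HasVal P f c) : evK P f = c := by
  have hmem := h.mem
  unfold evK
  rw [dif_pos hmem]
  have hres : IsLocalRing.residue P.toValuationSubring ⟨f, hmem⟩ =
      algebraMap K P.ResidueField c := by
    have h1 : (⟨f, hmem⟩ : P.toValuationSubring) - algebraMap K P.toValuationSubring c ∈
        IsLocalRing.maximalIdeal P.toValuationSubring := by
      obtain ⟨ha, hm⟩ := (ValuationSubring.mem_nonunits_iff_exists_mem_maximalIdeal).mp h
      exact hm
    have h2 : IsLocalRing.residue P.toValuationSubring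
        ((⟨f, hmem⟩ : P.toValuationSubring) - algebraMap K P.toValuationSubring c) = 0 :=
      (IsLocalRing.residue_eq_zero_iff _).mpr h1
    rw [map_sub, sub_eq_zero] at h2
    rw [h2]
    rfl
  rw [hres]
  exact Function.leftInverse_invFun (algebraMap K P.ResidueField).injective c

/-- Semilinear automorphisms transport values. -/
theorem hasVal_smul (g : SemilinearAut K F) {P : Place K F} {f : F} {c : K} (h : HasVal P f c) :
    HasVal (g • P) (g • f) (SemilinearAut.baseAut g c) := by
  unfold HasVal at h ⊢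
  rw [SemilinearAut.smul_toValuationSubring, ← SemilinearAut.smul_algebraMap, ← smul_sub]
  set x := f - algebraMap K F c with hx
  rw [ValuationSubring.mem_nonunits_iff] at h ⊢
  by_cases hx0 : x = 0
  · rw [hx0, smul_zero, map_zero]; exact zero_lt_one
  · have hgx0 : g • x ≠ 0 := by
      intro h0
      apply hx0
      have := congrArg (g⁻¹ • ·) h0
      simpa using this
    have hinv : x⁻¹ ∉ P.toValuationSubring := by
      intro hmem
      have h5 := (ValuationSubring.valuation_le_one_iff _ _).mpr hmem
      have h6 : P.toValuationSubring.valuation x * P.toValuationSubring.valuation x⁻¹ = 1 := by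
        rw [← map_mul, mul_inv_cancel₀ hx0, map_one]
      exact absurd h6 (ne_of_lt (mul_lt_one_of_lt_of_le h h5))
    have hginv : (g • x)⁻¹ ∉ (g • P.toValuationSubring : ValuationSubring F) := by
      intro hmem
      rw [ValuationSubring.mem_pointwise_smul_iff_inv_smul_mem] at hmem
      apply hinv
      have h8 : g⁻¹ • (g • x)⁻¹ = x⁻¹ := by
        rw [smul_inv'', inv_smul_smul]
      rwa [h8] at hmem
    by_contra hnot
    rw [not_lt] at hnot
    apply hginv
    rw [← ValuationSubring.valuation_le_one_iff, map_inv₀]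
    exact inv_le_one_of_one_le₀ hnot

open Classical in
/-- The value of `g` at `P` if it has one, `0` otherwise (equivariant by construction). -/
noncomputable def valAt (P : Place K F) (g : F) : K :=
  if h : ∃ c, HasVal P g c then h.choose else 0

theorem valAt_eq {P : Place K F} {g : F} {c : K} (h : HasVal P g c) : valAt P g = c := by
  have hex : ∃ c, HasVal P g c := ⟨c, h⟩
  unfold valAt
  rw [dif_pos hex]
  exact hex.choose_spec.unique h

theorem valAt_smul (s : SemilinearAut K F) (P : Place K F) (g : F) :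
    valAt (s • P) (s • g) = SemilinearAut.baseAut s (valAt P g) := by
  by_cases hex : ∃ c, HasVal P g c
  · obtain ⟨c, hc⟩ := hex
    rw [valAt_eq hc, valAt_eq (hasVal_smul s hc)]
  · have hex' : ¬ ∃ c, HasVal (s • P) (s • g) c := by
      rintro ⟨c, hc⟩
      apply hex
      have h2 := hasVal_smul s⁻¹ hc
      rw [inv_smul_smul, inv_smul_smul] at h2
      exact ⟨_, h2⟩
    unfold valAt
    rw [dif_neg hex, dif_neg hex', map_zero]

end Values

/-! ### WC1 -/

section Glue

variable (F₀ : IntermediateField ℚ (LaurentSeries ℚ))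
  [IsCurveOver (AlgebraicClosure ℚ) (FBar F₀)]
  [Algebra.EssFiniteType (AlgebraicClosure ℚ) (FBar F₀)]
variable (K₁ : IntermediateField ℚ (AlgebraicClosure ℚ)) [FiniteDimensional ℚ K₁]

/-- **WC1 (W5)**, VERBATIM statement of `WC.exists_finite_bad_primes` of the frozen skeleton v1:
outside a finite set of primes of `K₁` (depending only on the datum `(E, f)`), every Kummer value
`f(D)` has even valuation. -/
theorem exists_finite_bad_primes {t : Pic0 (AlgebraicClosure ℚ) (FBar F₀)}
    {E : Divisor (AlgebraicClosure ℚ) (FBar F₀)} {f : FBar F₀}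
    (h : IsTwoDatum F₀ K₁.fixingSubgroup t E f) :
    ∃ S : Set (HeightOneSpectrum (𝓞 K₁)), S.Finite ∧
      ∀ (x : Pic0 (AlgebraicClosure ℚ) (FBar F₀)) (D : Divisor (AlgebraicClosure ℚ) (FBar F₀))
        (c : K₁ˣ), IsRep F₀ K₁.fixingSubgroup x E D →
        (((c : K₁ˣ) : K₁) : AlgebraicClosure ℚ) = evalDiv f D →
        ∀ v : HeightOneSpectrum (𝓞 K₁), v ∉ S →
          (2 : ℤ) ∣ Multiplicative.toAdd (v.valuationOfNeZero c) := by
  classical
  obtain ⟨hf0, hdivf⟩ := h.div
  have hE : ∀ P : Place (AlgebraicClosure ℚ) (FBar F₀), P.ord f = 2 * E P := fun P => by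
    rw [← hdivf P]; simp
  haveI := isAlgebraic_rat_algebraicClosure
  obtain ⟨N, m, hfun, hN, hloc⟩ :=
    exists_local_sqrt_data (K := AlgebraicClosure ℚ) f hf0 (fun P => E P) hE
  -- a number field over which all the `hfun j` are rational
  have hKj : ∀ j : Fin m, ∃ L : IntermediateField ℚ (AlgebraicClosure ℚ), FiniteDimensional ℚ L ∧
      ∀ σ ∈ L.fixingSubgroup, arithmeticGalois F₀ σ • hfun j = hfun j := fun j =>
    H7716.Open.exists_fixingSubgroup_smul_eq F₀ (hfun j)
  choose L hLfin hLfix using hKj
  haveI := hLfin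
  have hK₁le : K₁ ≤ K₁ ⊔ ⨆ j, L j := le_sup_left
  have hLle : ∀ j, L j ≤ K₁ ⊔ ⨆ j, L j := fun j => (le_iSup L j).trans le_sup_right
  obtain ⟨S, hSfin, hS⟩ := exists_finite_of_evenAway_ext K₁ (K₁ ⊔ ⨆ j, L j) hK₁le N hN
  refine ⟨S, hSfin, fun x D c hrep hc v hv => ?_⟩
  letI : MulAction GQ (Place (AlgebraicClosure ℚ) (FBar F₀)) :=
    MulAction.compHom _ (arithmeticGalois F₀)
  have hmem₁ : ∀ σ ∈ (K₁ ⊔ ⨆ j, L j).fixingSubgroup, σ ∈ K₁.fixingSubgroup := fun σ hσ =>
    IntermediateField.fixingSubgroup_le hK₁le hσ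
  have hsupp : ∀ P ∈ D.support, E P = 0 := fun P hP =>
    Finsupp.notMem_support_iff.mp (Finset.disjoint_left.mp hrep.disj hP)
  have hvalf : ∀ P ∈ D.support, ∃ c₀ : AlgebraicClosure ℚ, HasVal P f c₀ ∧ c₀ ≠ 0 := by
    intro P hP
    obtain ⟨j, c₀, d, h1, -, h3, -⟩ := hloc P (hsupp P hP) ⊤ (ValuationSubring.mem_top _)
    exact ⟨c₀, h1, h3⟩
  obtain ⟨a, -, haeq, haeven⟩ := H2916.evenAway_of_local (K₁ ⊔ ⨆ j, L j) N D
    (fun σ hσ P => by
      have h1 := hrep.fixed σ (hmem₁ σ hσ)
      have h2 := SemilinearAut.divisor_smul_apply_smul (arithmeticGalois F₀ σ) D P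
      rw [h1] at h2
      exact h2)
    (fun P => valAt P f) m (fun j P => valAt P (hfun j))
    (fun P hP => by
      obtain ⟨c₀, h1, h3⟩ := hvalf P hP
      rw [valAt_eq h1]; exact h3)
    (fun σ hσ P _ => by
      have h1 := valAt_smul (arithmeticGalois F₀ σ) P f
      rw [h.fixedf σ (hmem₁ σ hσ)] at h1
      exact h1)
    (fun σ hσ j P _ => by
      have h1 := valAt_smul (arithmeticGalois F₀ σ) P (hfun j)
      rw [hLfix j σ (IntermediateField.fixingSubgroup_le (hLle j) hσ)] at h1
      exact h1)
    (fun P hP O hO => by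
      obtain ⟨j, c₀, d, h1, h2, h3, h4, h5, h6⟩ := hloc P (hsupp P hP) O hO
      refine ⟨j, ?_, ?_, ?_⟩
      · rw [valAt_eq h2]; exact h4
      · rw [valAt_eq h1, valAt_eq h2]; exact h5
      · rw [valAt_eq h1, valAt_eq h2]; exact h6)
  refine hS c a ?_ haeven v hv
  rw [haeq, hc]
  unfold evalDiv
  refine Finsupp.prod_congr fun P hP => ?_
  obtain ⟨c₀, h1, -⟩ := hvalf P hP
  rw [valAt_eq h1, evK_eq_of_hasVal h1]

end Glue

end Fermat.Agent.S17.WC.H7738
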