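/-
S17 / package WC — leaf WC2 `kummer_injective` (helper7138), statement VERBATIM from
`Fermat/Agent/S17/WC/Skel.lean` v1 (sub-architect helper5016).

Proof (uses only the frozen statements WA6 `WA.weilTrivial_of_evalDiv_sq` and
`WB.weil_nondegenerate`, plus the hypothesis `hdiv`):
`hdiv` gives `y` with `2 y = x`.  For `σ ∈ H = Gal(ℚ̄/K₁)` the class `s := σ y - y` is `2`-torsion
(`2 s = σ x - x = 0`), and `WeilTrivial t s` for every `2`-torsion `t` (WA6 applied to the data of
`h`), so `s = 0` by the non-degeneracy of the Weil pairing.  Hence `y` is `H`-fixed.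
-/
import Fermat.Agent.S17.WA.Skel
import Fermat.Agent.S17.WB.Skel

set_option autoImplicit false

namespace Fermat.Agent.S17.WC.H7138

open AlgebraicCurve ModularCurve Fermat.Agent.S17.W IsDedekindDomain NumberField

section NumberField

variable (F₀ : IntermediateField ℚ (LaurentSeries ℚ))
  [IsCurveOver (AlgebraicClosure ℚ) (FBar F₀)]
  [Algebra.EssFiniteType (AlgebraicClosure ℚ) (FBar F₀)]
variable (K₁ : IntermediateField ℚ (AlgebraicClosure ℚ)) [FiniteDimensional ℚ K₁]

/-- WC2 (Kummer injectivity): a `K₁`-rational class all of whose Kummer values are squares in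
`K₁` is twice a `K₁`-rational class. -/
theorem kummer_injective (hcount : TorsionCountTwo (AlgebraicClosure ℚ))
    (hdiv : DivisibleTwo (AlgebraicClosure ℚ))
    (x : Pic0 (AlgebraicClosure ℚ) (FBar F₀)) (hx : ClassFixed F₀ K₁.fixingSubgroup x)
    (h : ∀ t : Pic0 (AlgebraicClosure ℚ) (FBar F₀), (2 : ℕ) • t = 0 →
      ∃ (E D : Divisor (AlgebraicClosure ℚ) (FBar F₀)) (f : FBar F₀) (c : K₁),
        IsTwoDatum F₀ K₁.fixingSubgroup t E f ∧ IsRep F₀ K₁.fixingSubgroup x E D ∧
        evalDiv f D = ((c : K₁) : AlgebraicClosure ℚ) ^ 2) :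
    ∃ y : Pic0 (AlgebraicClosure ℚ) (FBar F₀), ClassFixed F₀ K₁.fixingSubgroup y ∧
      (2 : ℕ) • y = x := by
  obtain ⟨y, hy⟩ := hdiv (FBar F₀) x
  refine ⟨y, ?_, hy⟩
  intro σ hσ
  have hs2 : (2 : ℕ) • (σ • y - y) = 0 := by
    have h1 : σ • ((2 : ℕ) • y) = (2 : ℕ) • y := by rw [hy]; exact hx σ hσ
    rw [two_nsmul, smul_add] at h1
    rw [two_nsmul]
    have h2 : σ • y - y + (σ • y - y) = (σ • y + σ • y) - (y + y) := by abel
    rw [h2, h1, sub_self]
  have hs : σ • y - y = 0 := by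
    refine WB.weil_nondegenerate hcount hdiv (σ • y - y) hs2 ?_
    intro t ht
    obtain ⟨E, D, f, c, hEf, hD, hc⟩ := h t ht
    exact WA.weilTrivial_of_evalDiv_sq F₀ K₁ hEf hD c hc y hy σ hσ
  exact sub_eq_zero.mp hs

end NumberField

end Fermat.Agent.S17.WC.H7138
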