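/-
S17 / package WC — skeleton v1, INTEGRATED and CLOSED (sub-architect helper5016), part 1: WC1, WC2
(statements unchanged; the frozen `WC/Skel.lean` v1 is split into `WC/Skel12.lean`, `WC/Skel34.lean`, `WC/Skel.lean`
only because WC3 and WC5 were proved from their sibling leaves).
  WC1  helper7738  `WC/L1_7738.lean`  (W5; + `LocalSqrt7738` geometric half on two Dedekind charts, `L1c_7738`,
       helper2916 `W5Arith2916`/`NormVal2916`/`OrbitNorm2916` arithmetic half, helper7716 `Open7716`)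
  WC2  helper7138  `WC/L2_7138.lean`  (from WA6 + `WB.weil_nondegenerate` + `hdiv`; import lines changed)
-/
import Fermat.Agent.S17.WA.Skel
import Fermat.Agent.S17.WB.Skel
import Fermat.Agent.S17.SelmerFinite
import Fermat.Agent.S17.WC.L1_7738
import Fermat.Agent.S17.WC.L2_7138

set_option autoImplicit false

namespace Fermat.Agent.S17.WC

open AlgebraicCurve ModularCurve Fermat.Agent.S17.W IsDedekindDomain NumberField

variable (F₀ : IntermediateField ℚ (LaurentSeries ℚ))
  [IsCurveOver (AlgebraicClosure ℚ) (FBar F₀)]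
  [Algebra.EssFiniteType (AlgebraicClosure ℚ) (FBar F₀)]
variable (K₁ : IntermediateField ℚ (AlgebraicClosure ℚ)) [FiniteDimensional ℚ K₁]

/-- WC1 (W5): outside a finite set of primes of `K₁` (depending only on the datum `(E, f)`),
every Kummer value `f(D)` has even valuation. -/
theorem exists_finite_bad_primes {t : Pic0 (AlgebraicClosure ℚ) (FBar F₀)}
    {E : Divisor (AlgebraicClosure ℚ) (FBar F₀)} {f : FBar F₀}
    (h : IsTwoDatum F₀ K₁.fixingSubgroup t E f) :
    ∃ S : Set (HeightOneSpectrum (𝓞 K₁)), S.Finite ∧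
      ∀ (x : Pic0 (AlgebraicClosure ℚ) (FBar F₀)) (D : Divisor (AlgebraicClosure ℚ) (FBar F₀))
        (c : K₁ˣ), IsRep F₀ K₁.fixingSubgroup x E D →
        (((c : K₁ˣ) : K₁) : AlgebraicClosure ℚ) = evalDiv f D →
        ∀ v : HeightOneSpectrum (𝓞 K₁), v ∉ S →
          (2 : ℤ) ∣ Multiplicative.toAdd (v.valuationOfNeZero c) :=
  H7738.exists_finite_bad_primes F₀ K₁ h

/-- WC2 (Kummer injectivity): a `K₁`-rational class all of whose Kummer values are squares in
`K₁` is twice a `K₁`-rational class. -/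
theorem kummer_injective (hcount : TorsionCountTwo (AlgebraicClosure ℚ))
    (hdiv : DivisibleTwo (AlgebraicClosure ℚ))
    (x : Pic0 (AlgebraicClosure ℚ) (FBar F₀)) (hx : ClassFixed F₀ K₁.fixingSubgroup x)
    (h : ∀ t : Pic0 (AlgebraicClosure ℚ) (FBar F₀), (2 : ℕ) • t = 0 →
      ∃ (E D : Divisor (AlgebraicClosure ℚ) (FBar F₀)) (f : FBar F₀) (c : K₁),
        IsTwoDatum F₀ K₁.fixingSubgroup t E f ∧ IsRep F₀ K₁.fixingSubgroup x E D ∧
        evalDiv f D = ((c : K₁) : AlgebraicClosure ℚ) ^ 2) :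
    ∃ y : Pic0 (AlgebraicClosure ℚ) (FBar F₀), ClassFixed F₀ K₁.fixingSubgroup y ∧
      (2 : ℕ) • y = x :=
  H7138.kummer_injective F₀ K₁ hcount hdiv x hx h

end Fermat.Agent.S17.WC
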