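/-
S17 / package WC — leaf WC3 `weakMW_numberField` (helper7716), statement VERBATIM from
`Fermat/Agent/S17/WC/Skel.lean` v1 (sub-architect helper5016).

Proof (uses only the frozen statements WA1 `exists_twoDatum`, WA2 `exists_rep`,
WA3 `exists_evalDiv_eq`, WA5a/b `evalDiv_add/neg`, WC1 `exists_finite_bad_primes`,
WC2 `kummer_injective` and `SelmerFinite.finite_setOf_valuation_dvd_numberField`;
WA4 is NOT needed):

* `T = Pic0[2]` is finite (`hcount`); for `t ∈ T` fix a datum `(E t, f t)` (WA1) and its finite set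
  of bad primes `S t` (WC1); `S = ⋃ S t` is finite, so the set `Σ` of classes in `K₁ˣ/(K₁ˣ)²` with
  even valuations off `S` is finite.
* For `x ∈ A^H` and `t ∈ T` choose a representative `D x t` prime to `E t` (WA2) and
  `c x t ∈ K₁ˣ` with `c x t = f_t(D x t)` (WA3); `κ x := (t ↦ class of c x t) ∈ (T → Σ)`.
* If `κ x = κ x'` then for each `t`, `c x t / c x' t = d²`, and `D x t - D x' t` is a
  representative of `x - x'` with Kummer value `d²` (WA5), so `x - x' ∈ 2 A^H` by WC2.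
* A subgroup whose cosets are separated by a map with finite range has finite index.
-/
import Fermat.Agent.S17.WC.Skel12

set_option autoImplicit false

namespace Fermat.Agent.S17.WC.H7716

open AlgebraicCurve ModularCurve Fermat.Agent.S17.W IsDedekindDomain NumberField

/-- A subgroup whose cosets are separated by a map with finite range has finite index. -/
theorem finiteIndex_of_finite_range_sep {M : Type*} [AddCommGroup M] (B : AddSubgroup M)
    {X : Type*} (κ : M → X) (hfin : (Set.range κ).Finite)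
    (hκ : ∀ x x' : M, κ x = κ x' → x - x' ∈ B) : B.FiniteIndex := by
  have : Finite (Set.range κ) := hfin
  have hsurj : Function.Surjective
      (fun v : Set.range κ => (QuotientAddGroup.mk (Classical.choose v.2) : M ⧸ B)) := by
    intro q
    induction q using QuotientAddGroup.induction_on with
    | H x =>
      refine ⟨⟨κ x, x, rfl⟩, ?_⟩
      have h1 : κ (Classical.choose (⟨κ x, x, rfl⟩ : Set.range κ).2) = κ x :=
        Classical.choose_spec (⟨κ x, x, rfl⟩ : Set.range κ).2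
      have h2 := hκ _ _ h1.symm
      exact (QuotientAddGroup.eq_iff_sub_mem.mpr h2).symm
  have : Finite (M ⧸ B) := Finite.of_surjective _ hsurj
  exact AddSubgroup.finiteIndex_of_finite_quotient

section NumberField

variable (F₀ : IntermediateField ℚ (LaurentSeries ℚ))
  [IsCurveOver (AlgebraicClosure ℚ) (FBar F₀)]
  [Algebra.EssFiniteType (AlgebraicClosure ℚ) (FBar F₀)]
variable (K₁ : IntermediateField ℚ (AlgebraicClosure ℚ)) [FiniteDimensional ℚ K₁]

/-- The `2`-torsion of `Pic0` is finite (from the count). -/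
theorem finite_torsion_two (hcount : TorsionCountTwo (AlgebraicClosure ℚ)) :
    Finite (Pic0.torsion (AlgebraicClosure ℚ) (FBar F₀) 2) := by
  have h := hcount (FBar F₀)
  refine Nat.finite_of_card_ne_zero ?_
  rw [h]
  positivity

omit [IsCurveOver (AlgebraicClosure ℚ) (FBar F₀)]
  [Algebra.EssFiniteType (AlgebraicClosure ℚ) (FBar F₀)] in
theorem mem_torsion_two_iff (t : Pic0 (AlgebraicClosure ℚ) (FBar F₀)) :
    t ∈ Pic0.torsion (AlgebraicClosure ℚ) (FBar F₀) 2 ↔ (2 : ℕ) • t = 0 := by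
  rw [Pic0.mem_torsion, natCast_zsmul]

/-- WC3 (weak Mordell–Weil over `K₁`): if `Gal(ℚ̄/K₁)` fixes all `2`-torsion classes, then
`2 A^H` has finite index in `A^H`, `A = Pic0`, `H = Gal(ℚ̄/K₁)`. -/
theorem weakMW_numberField (hcount : TorsionCountTwo (AlgebraicClosure ℚ))
    (hdiv : DivisibleTwo (AlgebraicClosure ℚ))
    (hK : ∀ t : Pic0 (AlgebraicClosure ℚ) (FBar F₀), (2 : ℕ) • t = 0 →
      ClassFixed F₀ K₁.fixingSubgroup t) :
    (nsmulAddMonoidHom (α := ↥(FixedPoints.addSubgroup ↥K₁.fixingSubgroup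
      (Pic0 (AlgebraicClosure ℚ) (FBar F₀)))) 2).range.FiniteIndex := by
  classical
  have hTfin : Finite (Pic0.torsion (AlgebraicClosure ℚ) (FBar F₀) 2) :=
    finite_torsion_two F₀ hcount
  -- data for each 2-torsion class
  have hdat : ∀ t : Pic0.torsion (AlgebraicClosure ℚ) (FBar F₀) 2,
      ∃ (E : Divisor (AlgebraicClosure ℚ) (FBar F₀)) (f : FBar F₀),
        IsTwoDatum F₀ K₁.fixingSubgroup (t : Pic0 (AlgebraicClosure ℚ) (FBar F₀)) E f := fun t =>
    WA.exists_twoDatum F₀ K₁ t ((mem_torsion_two_iff F₀ _).mp t.2)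
      (hK t ((mem_torsion_two_iff F₀ _).mp t.2))
  choose E f hEf using hdat
  have hbad := fun t => exists_finite_bad_primes F₀ K₁ (hEf t)
  choose S hSfin hS using hbad
  have hSU : (⋃ t, S t).Finite := Set.finite_iUnion hSfin
  have hSel := SelmerFinite.finite_setOf_valuation_dvd_numberField K₁ (⋃ t, S t) hSU 2 (by norm_num)
  -- fixed points
  have hfixed : ∀ x : ↥(FixedPoints.addSubgroup ↥K₁.fixingSubgroup
      (Pic0 (AlgebraicClosure ℚ) (FBar F₀))),
      ClassFixed F₀ K₁.fixingSubgroup (x : Pic0 (AlgebraicClosure ℚ) (FBar F₀)) := by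
    intro x σ hσ
    exact x.2 ⟨σ, hσ⟩
  have hrep : ∀ (x : ↥(FixedPoints.addSubgroup ↥K₁.fixingSubgroup
      (Pic0 (AlgebraicClosure ℚ) (FBar F₀))))
      (t : Pic0.torsion (AlgebraicClosure ℚ) (FBar F₀) 2),
      ∃ D : Divisor (AlgebraicClosure ℚ) (FBar F₀),
        IsRep F₀ K₁.fixingSubgroup (x : Pic0 (AlgebraicClosure ℚ) (FBar F₀)) (E t) D := fun x t =>
    WA.exists_rep F₀ K₁ x (hfixed x) (E t)
  choose D hD using hrep
  have hval : ∀ (x : ↥(FixedPoints.addSubgroup ↥K₁.fixingSubgroup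
      (Pic0 (AlgebraicClosure ℚ) (FBar F₀))))
      (t : Pic0.torsion (AlgebraicClosure ℚ) (FBar F₀) 2),
      ∃ c : K₁ˣ, (((c : K₁ˣ) : K₁) : AlgebraicClosure ℚ) = evalDiv (f t) (D x t) := fun x t =>
    WA.exists_evalDiv_eq F₀ K₁ (hEf t) (hD x t)
  choose c hc using hval
  -- the Kummer map
  let κ : ↥(FixedPoints.addSubgroup ↥K₁.fixingSubgroup (Pic0 (AlgebraicClosure ℚ) (FBar F₀))) →
      (Pic0.torsion (AlgebraicClosure ℚ) (FBar F₀) 2 →
        K₁ˣ ⧸ (powMonoidHom 2 : K₁ˣ →* K₁ˣ).range) :=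
    fun x t => QuotientGroup.mk (c x t)
  refine finiteIndex_of_finite_range_sep _ κ ?_ ?_
  · -- finite range
    have hpi : (Set.univ.pi (fun _ : Pic0.torsion (AlgebraicClosure ℚ) (FBar F₀) 2 =>
        {y : K₁ˣ ⧸ (powMonoidHom 2 : K₁ˣ →* K₁ˣ).range | ∃ x : K₁ˣ, QuotientGroup.mk x = y ∧
          ∀ v : HeightOneSpectrum (𝓞 K₁), v ∉ (⋃ t, S t) →
            ((2 : ℕ) : ℤ) ∣ Multiplicative.toAdd (v.valuationOfNeZero x)})).Finite :=
      Set.Finite.pi (fun _ => hSel)
    refine hpi.subset ?_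
    rintro _ ⟨x, rfl⟩
    intro t _
    refine ⟨c x t, rfl, fun v hv => ?_⟩
    have hvt : v ∉ S t := fun h => hv (Set.mem_iUnion.mpr ⟨t, h⟩)
    have := hS t (x : Pic0 (AlgebraicClosure ℚ) (FBar F₀)) (D x t) (c x t) (hD x t) (hc x t) v hvt
    simpa using this
  · -- separation
    intro x x' hxx'
    have key : ∀ t : Pic0 (AlgebraicClosure ℚ) (FBar F₀), (2 : ℕ) • t = 0 →
        ∃ (E' D' : Divisor (AlgebraicClosure ℚ) (FBar F₀)) (f' : FBar F₀) (c' : K₁),
          IsTwoDatum F₀ K₁.fixingSubgroup t E' f' ∧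
          IsRep F₀ K₁.fixingSubgroup
            ((x : Pic0 (AlgebraicClosure ℚ) (FBar F₀)) - (x' : Pic0 (AlgebraicClosure ℚ) (FBar F₀)))
            E' D' ∧
          evalDiv f' D' = ((c' : K₁) : AlgebraicClosure ℚ) ^ 2 := by
      intro t ht
      set t' : Pic0.torsion (AlgebraicClosure ℚ) (FBar F₀) 2 :=
        ⟨t, (mem_torsion_two_iff F₀ t).mpr ht⟩ with ht'
      have h1 := WA.evalDiv_neg F₀ K₁ (hEf t') (hD x' t')
      have h2 := WA.evalDiv_add F₀ K₁ (hEf t') (hD x t') h1.1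
      have hq : (QuotientGroup.mk (c x t') : K₁ˣ ⧸ (powMonoidHom 2 : K₁ˣ →* K₁ˣ).range) =
          QuotientGroup.mk (c x' t') := congrFun hxx' t'
      rw [QuotientGroup.eq] at hq
      obtain ⟨d, hd⟩ := hq
      have hd' : d ^ 2 = (c x t')⁻¹ * c x' t' := hd
      refine ⟨E t', D x t' + -D x' t', f t', ((d⁻¹ : K₁ˣ) : K₁), hEf t', ?_, ?_⟩
      · rw [sub_eq_add_neg]; exact h2.1
      · rw [h2.2, h1.2, ← hc x t', ← hc x' t']
        have hd2 : (c x t' : K₁) * ((c x' t' : K₁ˣ) : K₁)⁻¹ = (((d⁻¹ : K₁ˣ) : K₁)) ^ 2 := by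
          have : c x t' * (c x' t')⁻¹ = (d⁻¹) ^ 2 := by
            rw [inv_pow, hd', mul_inv_rev, inv_inv, mul_comm]
          have h3 := congrArg (fun u : K₁ˣ => (u : K₁)) this
          simpa using h3
        have h4 := congrArg (fun u : K₁ => (u : AlgebraicClosure ℚ)) hd2
        simpa using h4
    obtain ⟨y, hyfix, hy2⟩ := kummer_injective F₀ K₁ hcount hdiv
      ((x : Pic0 (AlgebraicClosure ℚ) (FBar F₀)) - (x' : Pic0 (AlgebraicClosure ℚ) (FBar F₀)))
      (fun σ hσ => by rw [smul_sub, hfixed x σ hσ, hfixed x' σ hσ]) key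
    refine ⟨⟨y, fun σ => hyfix σ.1 σ.2⟩, ?_⟩
    apply Subtype.ext
    simpa using hy2

end NumberField

end Fermat.Agent.S17.WC.H7716
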