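/-
S17 / package WC (helper5338): abstract step W2 of weak Mordell–Weil.

`range_nsmul_fixedPoints_finiteIndex`:
  a group `G` acts on an abelian group `M`, `H ≤ G` has finite index, `M[l]` is finite and
  `M^H / l M^H` is finite.  Then `M^G / l M^G` is finite.
(The kernel of `M^G / l M^G → M^H / l M^H` injects into the finite set of maps `G ⧸ H → M[l]`,
`x = l y ↦ (σ ↦ σ y - y)`: "H¹ of a finite group with finite coefficients is finite".)
Mathlib only.
-/
import Mathlib

set_option autoImplicit false

namespace Fermat.Agent.S17.WC.H5338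

/-- A subgroup `C` has finite index as soon as the cosets are separated by a map to a finite type. -/
theorem finiteIndex_of_map_to_finite {B : Type*} [AddCommGroup B] (C : AddSubgroup B)
    {T : Type*} [Finite T] (f : B → T) (hf : ∀ b b' : B, f b = f b' → b - b' ∈ C) :
    C.FiniteIndex := by
  classical
  have hsurj : Function.Surjective
      (fun t : Set.range f => (QuotientAddGroup.mk (Classical.choose t.2) : B ⧸ C)) := by
    intro q
    induction q using QuotientAddGroup.induction_on with
    | H b =>
      refine ⟨⟨f b, b, rfl⟩, ?_⟩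
      have h := Classical.choose_spec (⟨b, rfl⟩ : ∃ b', f b' = f b)
      exact (QuotientAddGroup.eq_iff_sub_mem.mpr (hf _ _ h))
  have : Finite (B ⧸ C) := Finite.of_surjective _ hsurj
  exact AddSubgroup.finiteIndex_of_finite_quotient

variable {G M : Type*} [Group G] [AddCommGroup M] [DistribMulAction G M]

/-- **W2 (abstract).** Passing from the fixed points of a finite-index subgroup `H` to the fixed
points of `G` preserves "finite cokernel of multiplication by `l`", provided `M[l]` is finite. -/
theorem range_nsmul_fixedPoints_finiteIndex (H : Subgroup G) [H.FiniteIndex] (l : ℕ)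
    (htors : {t : M | l • t = 0}.Finite)
    (hH : (nsmulAddMonoidHom (α := FixedPoints.addSubgroup H M) l).range.FiniteIndex) :
    (nsmulAddMonoidHom (α := FixedPoints.addSubgroup G M) l).range.FiniteIndex := by
  classical
  -- notation
  set B := FixedPoints.addSubgroup G M with hB
  set C : AddSubgroup B := (nsmulAddMonoidHom (α := B) l).range with hC
  -- inclusion `M^G → M^H`
  let ι : B →+ FixedPoints.addSubgroup H M :=
    { toFun := fun x => ⟨(x : M), fun h => x.2 (h : G)⟩
      map_zero' := rfl
      map_add' := fun _ _ => rfl }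
  set D : AddSubgroup B :=
    ((nsmulAddMonoidHom (α := FixedPoints.addSubgroup H M) l).range).comap ι with hD
  have hDfin : D.FiniteIndex := by
    have : Finite (FixedPoints.addSubgroup H M ⧸
        (nsmulAddMonoidHom (α := FixedPoints.addSubgroup H M) l).range) :=
      AddSubgroup.finite_quotient_of_finiteIndex
    refine finiteIndex_of_map_to_finite D
      (fun b => (QuotientAddGroup.mk (ι b) : FixedPoints.addSubgroup H M ⧸
        (nsmulAddMonoidHom (α := FixedPoints.addSubgroup H M) l).range)) ?_
    intro b b' hbb'
    have h1 := QuotientAddGroup.eq_iff_sub_mem.mp hbb'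
    rw [hD, AddSubgroup.mem_comap, map_sub]
    exact h1
  have hCD : C ≤ D := by
    rintro _ ⟨x, rfl⟩
    exact ⟨ι x, Subtype.ext rfl⟩
  -- the torsion as a finite type
  have : Finite {t : M // l • t = 0} := htors.to_subtype
  have : Finite (G ⧸ H) := Subgroup.finite_quotient_of_finiteIndex
  -- choice of `y` with `l y = x`
  have hy : ∀ x : D, ∃ y : M, (∀ h : H, h • y = y) ∧ l • y = ((x : B) : M) := by
    rintro ⟨x, ⟨y, hy⟩⟩
    refine ⟨(y : M), fun h => y.2 h, ?_⟩
    have := congrArg (fun z : FixedPoints.addSubgroup H M => (z : M)) hy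
    simpa [ι] using this
  choose y hyH hyl using hy
  have hfix : ∀ (x : D) (g : G), g • ((x : B) : M) = ((x : B) : M) := fun x g => (x : B).2 g
  let f : D → (G ⧸ H → {t : M // l • t = 0}) := fun x q =>
    ⟨q.out • y x - y x, by
      show l • (q.out • y x - y x) = 0
      rw [smul_sub, smul_comm l q.out (y x), hyl, hfix, sub_self]⟩
  have key : (C.addSubgroupOf D).FiniteIndex := by
    refine finiteIndex_of_map_to_finite _ f ?_
    intro x x' hxx'
    -- `z = y x - y x'` is `G`-fixed
    have hz : ∀ g : G, g • (y x - y x') = y x - y x' := by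
      intro g
      have hq := congrFun hxx' (QuotientGroup.mk g : G ⧸ H)
      have hq' : (QuotientGroup.mk g : G ⧸ H).out • y x - y x =
          (QuotientGroup.mk g : G ⧸ H).out • y x' - y x' := congrArg Subtype.val hq
      obtain ⟨h, hh⟩ : ∃ h : H, g = (QuotientGroup.mk g : G ⧸ H).out * h := by
        have := QuotientGroup.mk_out_eq_mul H g
        obtain ⟨h, hh⟩ := this
        exact ⟨h⁻¹, by rw [hh]; simp⟩
      have h1 : g • y x = (QuotientGroup.mk g : G ⧸ H).out • y x := by
        conv_lhs => rw [hh, mul_smul]
        congr 1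
        exact hyH x h
      have h2 : g • y x' = (QuotientGroup.mk g : G ⧸ H).out • y x' := by
        conv_lhs => rw [hh, mul_smul]
        congr 1
        exact hyH x' h
      rw [smul_sub, h1, h2]
      have := hq'
      rw [sub_eq_sub_iff_add_eq_add] at this ⊢
      rw [this, add_comm]
    rw [AddSubgroup.mem_addSubgroupOf]
    refine ⟨⟨y x - y x', hz⟩, ?_⟩
    apply Subtype.ext
    simp only [nsmulAddMonoidHom_apply, AddSubgroup.coe_nsmul, AddSubgroupClass.coe_sub]
    rw [smul_sub, hyl, hyl]
  -- conclude by multiplicativity of the index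
  have hne : C.index ≠ 0 := by
    rw [← AddSubgroup.relIndex_mul_index hCD]
    exact mul_ne_zero key.index_ne_zero hDfin.index_ne_zero
  exact ⟨hne⟩

/-- **Assembly shape for weak Mordell–Weil.** If a family of maps `κ i : A → T` (`i` in a finite
type, e.g. `t ∈ J[l]`) takes values in a finite set `U` (e.g. the Selmer group `K(S,l)`), and
`κ i x = κ i x'` for all `i` forces `x - x' ∈ l A`, then `A / l A` is finite. -/
theorem range_nsmul_finiteIndex_of_kummer {A : Type*} [AddCommGroup A] {ι T : Type*} [Finite ι]
    (l : ℕ) (κ : ι → A → T) (U : Set T) (hU : U.Finite) (hκU : ∀ i x, κ i x ∈ U)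
    (hker : ∀ x x' : A, (∀ i, κ i x = κ i x') → x - x' ∈ (nsmulAddMonoidHom (α := A) l).range) :
    (nsmulAddMonoidHom (α := A) l).range.FiniteIndex := by
  have : Finite U := hU.to_subtype
  refine finiteIndex_of_map_to_finite _ (fun x (i : ι) => (⟨κ i x, hκU i x⟩ : U)) ?_
  intro b b' h
  exact hker b b' fun i => congrArg Subtype.val (congrFun h i)

end Fermat.Agent.S17.WC.H5338
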