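/-
S17 / WC / leaf WC4 (helper5338): `finiteIndex_of_finiteIndex_subgroup`, EXACT statement of
`Fermat/Agent/S17/WC/Skel.lean` (v1, helper5016).  Pure group theory; proof in
`Fermat/Agent/S17/WC/FixedDescent5338.lean` (general `l`).  Mathlib-only closure.
-/
import Fermat.Agent.S17.WC.FixedDescent5338

set_option autoImplicit false

namespace Fermat.Agent.S17.WC.H5338

/-- WC4 (W2, pure group theory): weak Mordell–Weil descends from a finite-index subgroup when the
`2`-torsion is finite. -/
theorem finiteIndex_of_finiteIndex_subgroup {G A : Type*} [Group G] [AddCommGroup A]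
    [DistribMulAction G A] (H : Subgroup G) [H.FiniteIndex]
    (hT : {t : A | (2 : ℕ) • t = 0}.Finite)
    (hH : (nsmulAddMonoidHom (α := ↥(FixedPoints.addSubgroup ↥H A)) 2).range.FiniteIndex) :
    (nsmulAddMonoidHom (α := ↥(FixedPoints.addSubgroup G A)) 2).range.FiniteIndex :=
  range_nsmul_fixedPoints_finiteIndex H 2 hT hH

end Fermat.Agent.S17.WC.H5338
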