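/-
S17 / W integration (helper5016): WC3, WC4 of the frozen skeleton `WC/Skel.lean` v1 (same names/statements).
  WC3  helper7716  `WC/L3_7716.lean` (import line changed to `WC.Skel12`)
  WC4  helper5338  `WC/L4_5338.lean`
-/
import Fermat.Agent.S17.WC.Skel12
import Fermat.Agent.S17.WC.L3_7716
import Fermat.Agent.S17.WC.L4_5338

set_option autoImplicit false

namespace Fermat.Agent.S17.WC

open AlgebraicCurve ModularCurve Fermat.Agent.S17.W IsDedekindDomain NumberField

/-- WC3 (weak Mordell–Weil over `K₁`): if `Gal(ℚ̄/K₁)` fixes all `2`-torsion classes, then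
`2 A^H` has finite index in `A^H`, `A = Pic0`, `H = Gal(ℚ̄/K₁)`. -/
theorem weakMW_numberField (F₀ : IntermediateField ℚ (LaurentSeries ℚ))
    [IsCurveOver (AlgebraicClosure ℚ) (FBar F₀)]
    [Algebra.EssFiniteType (AlgebraicClosure ℚ) (FBar F₀)]
    (K₁ : IntermediateField ℚ (AlgebraicClosure ℚ)) [FiniteDimensional ℚ K₁]
    (hcount : TorsionCountTwo (AlgebraicClosure ℚ))
    (hdiv : DivisibleTwo (AlgebraicClosure ℚ))
    (hK : ∀ t : Pic0 (AlgebraicClosure ℚ) (FBar F₀), (2 : ℕ) • t = 0 →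
      ClassFixed F₀ K₁.fixingSubgroup t) :
    (nsmulAddMonoidHom (α := ↥(FixedPoints.addSubgroup ↥K₁.fixingSubgroup
      (Pic0 (AlgebraicClosure ℚ) (FBar F₀)))) 2).range.FiniteIndex :=
  H7716.weakMW_numberField F₀ K₁ hcount hdiv hK

/-- WC4 (W2, pure group theory): weak Mordell–Weil descends from a finite-index subgroup when the
`2`-torsion is finite. -/
theorem finiteIndex_of_finiteIndex_subgroup {G A : Type*} [Group G] [AddCommGroup A]
    [DistribMulAction G A] (H : Subgroup G) [H.FiniteIndex]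
    (hT : {t : A | (2 : ℕ) • t = 0}.Finite)
    (hH : (nsmulAddMonoidHom (α := ↥(FixedPoints.addSubgroup ↥H A)) 2).range.FiniteIndex) :
    (nsmulAddMonoidHom (α := ↥(FixedPoints.addSubgroup G A)) 2).range.FiniteIndex :=
  H5338.finiteIndex_of_finiteIndex_subgroup H hT hH

end Fermat.Agent.S17.WC
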