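/-
S17 / package WC — leaf WC5 `weakMW_main` (helper2938).

Statement = skeleton v1 of helper5016 (`Fermat.Agent.S17.WC.weakMW_main`), verbatim, proved from
the skeleton leaves WC3 `weakMW_numberField` and WC4 `finiteIndex_of_finiteIndex_subgroup`
(both taken as explicit hypotheses in `weakMW_main_of`, so that the core does not depend on any
open leaf; `weakMW_main` plugs in the skeleton statements).

Proof: `Pic0[2]` is finite (`hcount` for `F' = FBar F₀`); every `2`-torsion class is fixed by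
`Gal(ℚ̄/K_t)` for a number field `K_t` (`hstab`); the compositum `K₁` of the finitely many `K_t`
is a number field whose fixing subgroup fixes all of `Pic0[2]`; it is open in the compact group
`Gal(ℚ̄/ℚ)`, hence of finite index; WC3 for `K₁`, then WC4.
-/
import Fermat.Agent.S17.WC.Skel34

set_option autoImplicit false

namespace Fermat.Agent.S17.WC.H2938

open AlgebraicCurve ModularCurve Fermat.Agent.S17.W

/-- `ℚ̄ / ℚ` is Galois (for the `ℚ`-algebra structure found by instance search). -/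
theorem isGalois_ratBar : IsGalois ℚ (AlgebraicClosure ℚ) := by
  have h := @IsAlgClosure.isGalois ℚ (AlgebraicClosure ℚ) _ _ (AlgebraicClosure.instAlgebra ℚ)
    (AlgebraicClosure.instIsAlgClosure ℚ) _
  convert h
  exact Subsingleton.elim _ _

/-- The fixing subgroup of a number field `K₁ ⊆ ℚ̄` has finite index in `Gal(ℚ̄/ℚ)`
(open subgroup of a compact group). -/
theorem finiteIndex_fixingSubgroup (K₁ : IntermediateField ℚ (AlgebraicClosure ℚ))
    [FiniteDimensional ℚ K₁] : (K₁.fixingSubgroup : Subgroup GQ).FiniteIndex := by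
  have hgal : IsGalois ℚ (AlgebraicClosure ℚ) := isGalois_ratBar
  have hfin : Finite (GQ ⧸ (K₁.fixingSubgroup : Subgroup GQ)) :=
    Subgroup.quotient_finite_of_isOpen _ (IntermediateField.fixingSubgroup_isOpen K₁)
  exact Subgroup.finiteIndex_of_finite_quotient

/-- The `2`-torsion of `Pic0` is finite, from the torsion count. -/
theorem finite_twoTorsion (F₀ : IntermediateField ℚ (LaurentSeries ℚ))
    [IsCurveOver (AlgebraicClosure ℚ) (FBar F₀)]
    [Algebra.EssFiniteType (AlgebraicClosure ℚ) (FBar F₀)]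
    (hcount : TorsionCountTwo (AlgebraicClosure ℚ)) :
    {t : Pic0 (AlgebraicClosure ℚ) (FBar F₀) | (2 : ℕ) • t = 0}.Finite := by
  have h1 := hcount (FBar F₀)
  have h2 : Nat.card (Pic0.torsion (AlgebraicClosure ℚ) (FBar F₀) 2) ≠ 0 := by
    rw [h1]; positivity
  have h3 : Finite (Pic0.torsion (AlgebraicClosure ℚ) (FBar F₀) 2) :=
    (Nat.card_ne_zero.mp h2).2
  have h4 : {t : Pic0 (AlgebraicClosure ℚ) (FBar F₀) | (2 : ℕ) • t = 0} =
      (Pic0.torsion (AlgebraicClosure ℚ) (FBar F₀) 2 : Set (Pic0 (AlgebraicClosure ℚ) (FBar F₀))) := by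
    ext t
    simp only [Set.mem_ofPred_eq, SetLike.mem_coe, Pic0.mem_torsion]
    rw [← natCast_zsmul]
  rw [h4]
  exact Set.toFinite _

/-- Open stabilisers + finiteness: one number field fixes all `2`-torsion classes. -/
theorem exists_numberField_fixing_twoTorsion (F₀ : IntermediateField ℚ (LaurentSeries ℚ))
    [IsCurveOver (AlgebraicClosure ℚ) (FBar F₀)]
    [Algebra.EssFiniteType (AlgebraicClosure ℚ) (FBar F₀)]
    (hT : {t : Pic0 (AlgebraicClosure ℚ) (FBar F₀) | (2 : ℕ) • t = 0}.Finite)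
    (hstab : OpenStabilisers F₀) :
    ∃ K₁ : IntermediateField ℚ (AlgebraicClosure ℚ), FiniteDimensional ℚ K₁ ∧
      ∀ t : Pic0 (AlgebraicClosure ℚ) (FBar F₀), (2 : ℕ) • t = 0 →
        ClassFixed F₀ K₁.fixingSubgroup t := by
  classical
  choose Kf hKf1 hKf2 using hstab
  have : Finite {t : Pic0 (AlgebraicClosure ℚ) (FBar F₀) | (2 : ℕ) • t = 0} := hT
  have : ∀ t : {t : Pic0 (AlgebraicClosure ℚ) (FBar F₀) | (2 : ℕ) • t = 0},
      FiniteDimensional ℚ (Kf t.1) := fun t => hKf1 t.1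
  refine ⟨⨆ t : {t : Pic0 (AlgebraicClosure ℚ) (FBar F₀) | (2 : ℕ) • t = 0}, Kf t.1,
    IntermediateField.finiteDimensional_iSup_of_finite, ?_⟩
  intro t ht σ hσ
  have hle : Kf t ≤ ⨆ t : {t : Pic0 (AlgebraicClosure ℚ) (FBar F₀) | (2 : ℕ) • t = 0}, Kf t.1 :=
    le_iSup (fun t : {t : Pic0 (AlgebraicClosure ℚ) (FBar F₀) | (2 : ℕ) • t = 0} => Kf t.1)
      ⟨t, ht⟩
  exact hKf2 t σ (IntermediateField.fixingSubgroup_antitone hle hσ)

/-- WC5 with WC3 and WC4 as explicit hypotheses (no open leaf in the closure of this lemma). -/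
theorem weakMW_main_of (F₀ : IntermediateField ℚ (LaurentSeries ℚ))
    [IsCurveOver (AlgebraicClosure ℚ) (FBar F₀)]
    [Algebra.EssFiniteType (AlgebraicClosure ℚ) (FBar F₀)]
    (hcount : TorsionCountTwo (AlgebraicClosure ℚ))
    (hstab : OpenStabilisers F₀)
    (hWC3 : ∀ (K₁ : IntermediateField ℚ (AlgebraicClosure ℚ)) [FiniteDimensional ℚ K₁],
      (∀ t : Pic0 (AlgebraicClosure ℚ) (FBar F₀), (2 : ℕ) • t = 0 →
        ClassFixed F₀ K₁.fixingSubgroup t) →
      (nsmulAddMonoidHom (α := ↥(FixedPoints.addSubgroup ↥K₁.fixingSubgroup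
        (Pic0 (AlgebraicClosure ℚ) (FBar F₀)))) 2).range.FiniteIndex)
    (hWC4 : ∀ (H : Subgroup GQ) [H.FiniteIndex],
      {t : Pic0 (AlgebraicClosure ℚ) (FBar F₀) | (2 : ℕ) • t = 0}.Finite →
      (nsmulAddMonoidHom (α := ↥(FixedPoints.addSubgroup ↥H
        (Pic0 (AlgebraicClosure ℚ) (FBar F₀)))) 2).range.FiniteIndex →
      (nsmulAddMonoidHom (α := ↥(FixedPoints.addSubgroup GQ
        (Pic0 (AlgebraicClosure ℚ) (FBar F₀)))) 2).range.FiniteIndex) :
    (nsmulAddMonoidHom (α := MW F₀) 2).range.FiniteIndex := by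
  have hT := finite_twoTorsion F₀ hcount
  obtain ⟨K₁, hK₁, hfix⟩ := exists_numberField_fixing_twoTorsion F₀ hT hstab
  have := hK₁
  have := finiteIndex_fixingSubgroup K₁
  exact hWC4 K₁.fixingSubgroup hT (hWC3 K₁ hfix)

/-- WC5 = the target of the W packages, statement of the skeleton verbatim. -/
theorem weakMW_main (F₀ : IntermediateField ℚ (LaurentSeries ℚ))
    [IsCurveOver (AlgebraicClosure ℚ) (FBar F₀)]
    [Algebra.EssFiniteType (AlgebraicClosure ℚ) (FBar F₀)]
    (hcount : TorsionCountTwo (AlgebraicClosure ℚ)) (hdiv : DivisibleTwo (AlgebraicClosure ℚ))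
    (hstab : OpenStabilisers F₀) :
    (nsmulAddMonoidHom (α := MW F₀) 2).range.FiniteIndex :=
  weakMW_main_of F₀ hcount hstab
    (fun K₁ _ hK => weakMW_numberField F₀ K₁ hcount hdiv hK)
    (fun H _ hT hH => finiteIndex_of_finiteIndex_subgroup H hT hH)


end Fermat.Agent.S17.WC.H2938
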