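/-
S17 / W integration (helper5016): WC5 = `weakMW_main`, the target of the W packages
(same name/statement as in the frozen skeleton `WC/Skel.lean` v1).
  WC5  helper2938  `WC/L5_2938.lean` (import line changed to `WC.Skel34`; final `example` check removed)
`#print axioms Fermat.Agent.S17.WC.weakMW_main` in this module shows what is still missing.
-/
import Fermat.Agent.S17.WC.Skel34
import Fermat.Agent.S17.WC.L5_2938

set_option autoImplicit false

namespace Fermat.Agent.S17.WC

open AlgebraicCurve ModularCurve Fermat.Agent.S17.W

/-- WC5 = the target of the W packages: `weakMW` of `Top.lean` from the three external inputs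
(S27 count, package DIV, package BR). -/
theorem weakMW_main (F₀ : IntermediateField ℚ (LaurentSeries ℚ))
    [IsCurveOver (AlgebraicClosure ℚ) (FBar F₀)]
    [Algebra.EssFiniteType (AlgebraicClosure ℚ) (FBar F₀)]
    (hcount : TorsionCountTwo (AlgebraicClosure ℚ)) (hdiv : DivisibleTwo (AlgebraicClosure ℚ))
    (hstab : OpenStabilisers F₀) :
    (nsmulAddMonoidHom (α := MW F₀) 2).range.FiniteIndex :=
  H2938.weakMW_main F₀ hcount hdiv hstab

end Fermat.Agent.S17.WC
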